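/-
Project S36 (Carayol), cell [AL2] (helper17): the GENERAL ATKIN–LEHNER SWAP `W_l` on the function
field `F̄_{N l}` of `X₀(N l)` for ANY `l ≥ 1` coprime to `N` (`l` need not be prime).

For `l a − N c = 1` the matrix `W = [[l a, 1], [N l c, l]]` (determinant `l`, helper24's `nls_mat`)
satisfies, for `e e' = N`, `f f' = l`:

  `diag(e f, 1) · W = f · γ · diag(e f', 1)`,  `γ = [[f a, e], [e' c, f']] ∈ SL(2,ℤ)`,

hence `j(e f · W τ) = j(e f' τ)`: precomposition with `W` permutes the generators `j(X^d)`, `d ∣ N l`,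
of `A0 (N l)` by `e f ↦ e (l / f)`.  Exactly as in `JT3/NL/Swap.lean` (the case `l` prime,
`f ∈ {1, l}`), S24's injective analytic realisation `br_an` turns this into a `Q̄`-algebra
endomorphism `s36w_W` of `F̄_{N l}` with

* `s36w_W_barGen : W (j(X^{e f})) = j(X^{e f'})`  (`e ∣ N`, `f f' = l`),
* `s36w_W_W      : W (W x) = x`.

`s36w_Wof (hM : M = N * l)` is the same map on `F̄_M` (to avoid casts at `M = N' * q * q`).
Prefix `s36w_`.
-/
import Mathlib
import Fermat.Agent.JT3.NL.Swap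

set_option autoImplicit false
set_option linter.unusedSectionVars false
set_option linter.style.haveILetI false
set_option linter.unusedVariables false

namespace Fermat.Agent.S36

open UpperHalfPlane Matrix ModularCurve
open Fermat.Agent.S24 Fermat.Agent.S23 Fermat.Agent.JT3
open scoped MatrixGroups

/-! ### generators with equal index -/

theorem s36w_barGen_congr {d d' : ℕ} [NeZero d] [NeZero d'] (h : d = d') :
    barGen d = barGen d' := by
  subst h
  rfl

section Matrix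

variable {N l : ℕ} [NeZero l] {a c : ℤ}

/-- `[[f a, e], [e' c, f']] ∈ SL(2,ℤ)` for `e e' = N`, `f f' = l`, `l a − N c = 1`. -/
def s36w_gam (e e' f f' : ℕ) (hN : N = e * e') (hl : l = f * f')
    (h : (l : ℤ) * a - N * c = 1) : SL(2, ℤ) :=
  ⟨!![(f : ℤ) * a, (e : ℤ); (e' : ℤ) * c, (f' : ℤ)], by
    rw [Matrix.det_fin_two_of]
    subst hN hl
    push_cast at h
    linear_combination h⟩

theorem s36w_smul_eq (e e' f f' : ℕ) [NeZero (e * f)] [NeZero (e * f')] (hN : N = e * e')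
    (hl : l = f * f') (h : (l : ℤ) * a - N * c = 1) (z : ℍ) :
    alphaN (e * f) • (nls_mat N l a c h • z) =
      s36w_gam e e' f f' hN hl h • (alphaN (e * f') • z) := by
  apply UpperHalfPlane.ext
  have hden := nls_denom_ne_zero h z
  rw [coe_alphaN_smul, nls_coe_mat_smul, UpperHalfPlane.coe_specialLinearGroup_apply,
    coe_alphaN_smul]
  simp only [s36w_gam, Matrix.SpecialLinearGroup.coe_mk, Matrix.of_apply, Matrix.cons_val',
    Matrix.cons_val_zero, Matrix.cons_val_one, Matrix.empty_val', Matrix.cons_val_fin_one,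
    algebraMap_int_eq, Int.coe_castRingHom]
  have hN' : (N : ℂ) = e * e' := by exact_mod_cast hN
  have hl' : (l : ℂ) = f * f' := by exact_mod_cast hl
  have hl0 : (l : ℂ) ≠ 0 := by exact_mod_cast NeZero.ne l
  have hf0 : (f : ℂ) ≠ 0 := by
    intro h0
    apply hl0
    rw [hl', h0, zero_mul]
  have hf'0 : (f' : ℂ) ≠ 0 := by
    intro h0
    apply hl0
    rw [hl', h0, mul_zero]
  rw [hN', hl'] at hden
  rw [hN', hl']
  have hden' : ((e' : ℂ) * c) * (((e * f' : ℕ) : ℂ) * (z : ℂ)) + f' ≠ 0 := by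
    intro h0
    apply hden
    push_cast at h0
    linear_combination (f : ℂ) * h0
  push_cast
  push_cast at hden'
  rw [mul_div_assoc', div_eq_div_iff hden hden']
  ring

theorem s36w_jd_comp (e e' f f' : ℕ) [NeZero (e * f)] [NeZero (e * f')] (hN : N = e * e')
    (hl : l = f * f') (h : (l : ℤ) * a - N * c = 1) (z : ℍ) :
    jd (e * f) (nls_mat N l a c h • z) = jd (e * f') z := by
  rw [jd, s36w_smul_eq e e' f f' hN hl h z, kleinJ_smul, jd]

end Matrix

section Swap0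

variable {N l : ℕ} [NeZero N] [NeZero l] {a c : ℤ} (h : (l : ℤ) * a - N * c = 1)

theorem s36w_exists_bezout (hcop : Nat.Coprime l N) : ∃ a c : ℤ, (l : ℤ) * a - N * c = 1 := by
  have h := Int.gcd_eq_gcd_ab (l : ℤ) (N : ℤ)
  rw [Int.gcd_natCast_natCast, hcop] at h
  refine ⟨Int.gcdA l N, -Int.gcdB l N, ?_⟩
  push_cast at h
  linarith

/-- Every element of `A0 (N l)` has an Atkin–Lehner transform in `A0 (N l)`. -/
theorem s36w_exists_comp {x : LaurentSeries Kbar} (hx : x ∈ A0 (N * l)) :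
    ∃ x' : A0 (N * l), ∀ z : ℍ, ((br_an (N * l) x' : jdAlgebra (N * l)) : ℍ → ℂ) z =
      ((br_an (N * l) ⟨x, hx⟩ : jdAlgebra (N * l)) : ℍ → ℂ) (nls_mat N l a c h • z) := by
  induction hx using Algebra.adjoin_induction with
  | mem y hy =>
    obtain ⟨d, hd, hdN, rfl⟩ := hy
    haveI := hd
    obtain ⟨e, f, ⟨e', he'⟩, ⟨f', hf'⟩, hdef⟩ := (Nat.dvd_mul).1 hdN
    subst hdef
    have hNl0 : N * l ≠ 0 := Nat.mul_ne_zero (NeZero.ne N) (NeZero.ne l)
    have he0 : e ≠ 0 := by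
      intro h0; subst h0; exact NeZero.ne N (by rw [he', zero_mul])
    have hf'0 : f' ≠ 0 := by
      intro h0; subst h0; exact NeZero.ne l (by rw [hf', mul_zero])
    haveI : NeZero (e * f') := ⟨Nat.mul_ne_zero he0 hf'0⟩
    have hd' : e * f' ∣ N * l := Nat.mul_dvd_mul ⟨e', he'⟩ ⟨f, by rw [hf', mul_comm]⟩
    refine ⟨⟨barGen (e * f'), Algebra.subset_adjoin (barGen_mem_barGens hd')⟩, fun z => ?_⟩
    have e1 := br_an_barGen (N * l) hd'
    have e2 := br_an_barGen (N * l) hdN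
    rw [e1]
    change _ = ((br_an (N * l) ⟨barGen (e * f), Algebra.subset_adjoin (barGen_mem_barGens hdN)⟩ :
      jdAlgebra (N * l)) : ℍ → ℂ) _
    rw [e2, s36w_jd_comp e e' f f' he' hf' h z]
  | algebraMap r =>
    refine ⟨algebraMap Kbar (A0 (N * l)) r, fun z => ?_⟩
    have e1 := br_an_algebraMap (N * l) r
    rw [e1]
    change _ = ((br_an (N * l) (algebraMap Kbar (A0 (N * l)) r) : jdAlgebra (N * l)) : ℍ → ℂ) _
    rw [e1]
  | add x y hx hy ihx ihy =>
    obtain ⟨x', hx'⟩ := ihx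
    obtain ⟨y', hy'⟩ := ihy
    refine ⟨x' + y', fun z => ?_⟩
    have : (⟨x + y, add_mem hx hy⟩ : A0 (N * l)) = ⟨x, hx⟩ + ⟨y, hy⟩ := rfl
    rw [map_add]
    change ((br_an (N * l) x' : jdAlgebra (N * l)) : ℍ → ℂ) z +
      ((br_an (N * l) y' : jdAlgebra (N * l)) : ℍ → ℂ) z = _
    rw [hx' z, hy' z]
    change _ = ((br_an (N * l) (⟨x, hx⟩ + ⟨y, hy⟩) : jdAlgebra (N * l)) : ℍ → ℂ) _
    rw [map_add]
    rfl
  | mul x y hx hy ihx ihy =>
    obtain ⟨x', hx'⟩ := ihx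
    obtain ⟨y', hy'⟩ := ihy
    refine ⟨x' * y', fun z => ?_⟩
    rw [map_mul]
    change ((br_an (N * l) x' : jdAlgebra (N * l)) : ℍ → ℂ) z *
      ((br_an (N * l) y' : jdAlgebra (N * l)) : ℍ → ℂ) z = _
    rw [hx' z, hy' z]
    change _ = ((br_an (N * l) (⟨x, hx⟩ * ⟨y, hy⟩) : jdAlgebra (N * l)) : ℍ → ℂ) _
    rw [map_mul]
    rfl

end Swap0

section Swap1

variable {N l : ℕ} [NeZero N] [NeZero l] {a c : ℤ} (h : (l : ℤ) * a - N * c = 1)

/-- The Atkin–Lehner transform on `A0 (N l)`, as a function. -/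
noncomputable def s36w_W0fun (x : A0 (N * l)) : A0 (N * l) :=
  (s36w_exists_comp h x.2).choose

theorem s36w_W0fun_spec (x : A0 (N * l)) (z : ℍ) :
    ((br_an (N * l) (s36w_W0fun h x) : jdAlgebra (N * l)) : ℍ → ℂ) z =
      ((br_an (N * l) x : jdAlgebra (N * l)) : ℍ → ℂ) (nls_mat N l a c h • z) :=
  (s36w_exists_comp h x.2).choose_spec z

theorem s36w_W0fun_eq (x x' : A0 (N * l))
    (hx' : ∀ z : ℍ, ((br_an (N * l) x' : jdAlgebra (N * l)) : ℍ → ℂ) z =
      ((br_an (N * l) x : jdAlgebra (N * l)) : ℍ → ℂ) (nls_mat N l a c h • z)) :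
    s36w_W0fun h x = x' := by
  apply br_an_injective (N * l)
  apply Subtype.ext
  funext z
  rw [s36w_W0fun_spec, hx']

/-- The Atkin–Lehner transform on `A0 (N l)`, as an algebra endomorphism. -/
noncomputable def s36w_W0 : A0 (N * l) →ₐ[Kbar] A0 (N * l) where
  toFun := s36w_W0fun h
  map_one' := s36w_W0fun_eq h _ _ fun z => by
    rw [map_one]; rfl
  map_mul' x y := s36w_W0fun_eq h _ _ fun z => by
    rw [map_mul, map_mul]
    change ((br_an (N * l) (s36w_W0fun h x) : jdAlgebra (N * l)) : ℍ → ℂ) z *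
      ((br_an (N * l) (s36w_W0fun h y) : jdAlgebra (N * l)) : ℍ → ℂ) z = _
    rw [s36w_W0fun_spec, s36w_W0fun_spec]
    rfl
  map_zero' := s36w_W0fun_eq h _ _ fun z => by
    rw [map_zero]; rfl
  map_add' x y := s36w_W0fun_eq h _ _ fun z => by
    rw [map_add, map_add]
    change ((br_an (N * l) (s36w_W0fun h x) : jdAlgebra (N * l)) : ℍ → ℂ) z +
      ((br_an (N * l) (s36w_W0fun h y) : jdAlgebra (N * l)) : ℍ → ℂ) z = _
    rw [s36w_W0fun_spec, s36w_W0fun_spec]
    rfl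
  commutes' r := s36w_W0fun_eq h _ _ fun z => by
    rw [br_an_algebraMap]

theorem s36w_W0_spec (x : A0 (N * l)) (z : ℍ) :
    ((br_an (N * l) (s36w_W0 h x) : jdAlgebra (N * l)) : ℍ → ℂ) z =
      ((br_an (N * l) x : jdAlgebra (N * l)) : ℍ → ℂ) (nls_mat N l a c h • z) :=
  s36w_W0fun_spec h x z

theorem s36w_W0_injective : Function.Injective (s36w_W0 h) := by
  rw [injective_iff_map_eq_zero]
  intro x hx
  apply br_an_injective (N * l)
  apply Subtype.ext
  funext z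
  have h1 := s36w_W0_spec h x ((nls_mat N l a c h)⁻¹ • z)
  rw [hx, smul_inv_smul] at h1
  rw [← h1, map_zero]
  rfl

/-- `W (j(X^{e f})) = j(X^{e f'})` for `e ∣ N`, `f f' = l`. -/
theorem s36w_W0_barGen {e f f' : ℕ} [NeZero (e * f)] [NeZero (e * f')] (he : e ∣ N)
    (hl : l = f * f') (hd1 : e * f ∣ N * l) (hd2 : e * f' ∣ N * l) :
    s36w_W0 h ⟨barGen (e * f), Algebra.subset_adjoin (barGen_mem_barGens hd1)⟩ =
      ⟨barGen (e * f'), Algebra.subset_adjoin (barGen_mem_barGens hd2)⟩ := by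
  obtain ⟨e', he'⟩ := he
  refine s36w_W0fun_eq h _ _ fun z => ?_
  rw [br_an_barGen (N * l) hd2, br_an_barGen (N * l) hd1, s36w_jd_comp e e' f f' he' hl h z]

end Swap1

section Swap2

variable {N l : ℕ} [NeZero N] [NeZero l] {a c : ℤ} (h : (l : ℤ) * a - N * c = 1)

/-- `A0 (N l) → F̄_{N l}`, `x ↦ W x`. -/
noncomputable def s36w_Wg : A0 (N * l) →ₐ[Kbar] Fbar (N * l) :=
  (IsScalarTower.toAlgHom Kbar (A0 (N * l)) (Fbar (N * l))).comp (s36w_W0 h)

theorem s36w_Wg_apply (x : A0 (N * l)) :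
    s36w_Wg h x = algebraMap (A0 (N * l)) (Fbar (N * l)) (s36w_W0 h x) := rfl

theorem s36w_Wg_injective : Function.Injective (s36w_Wg h) := by
  intro x y hxy
  rw [s36w_Wg_apply, s36w_Wg_apply] at hxy
  exact s36w_W0_injective h
    (FaithfulSMul.algebraMap_injective (A0 (N * l)) (Fbar (N * l)) hxy)

/-- The Atkin–Lehner involution `W_l` of the function field `F̄_{N l}`, `l` coprime to `N`. -/
noncomputable def s36w_W : Fbar (N * l) →ₐ[Kbar] Fbar (N * l) :=
  IsFractionRing.liftAlgHom (g := s36w_Wg h) (s36w_Wg_injective h)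

theorem s36w_W_algebraMap (x : A0 (N * l)) :
    s36w_W h (algebraMap (A0 (N * l)) (Fbar (N * l)) x) =
      algebraMap (A0 (N * l)) (Fbar (N * l)) (s36w_W0 h x) := by
  rw [s36w_W, IsFractionRing.liftAlgHom_apply, IsFractionRing.lift_algebraMap]
  rfl

/-- the element `j(X^d)` of `F̄_M`, `d ∣ M`. -/
noncomputable def s36w_gen (M : ℕ) [NeZero M] (d : ℕ) [NeZero d] (hd : d ∣ M) : Fbar M :=
  algebraMap (A0 M) (Fbar M) ⟨barGen d, Algebra.subset_adjoin (barGen_mem_barGens hd)⟩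

theorem s36w_gen_coe (M : ℕ) [NeZero M] (d : ℕ) [NeZero d] (hd : d ∣ M) :
    ((s36w_gen M d hd : Fbar M) : LaurentSeries Kbar) = barGen d := rfl

theorem s36w_gen_congr (M : ℕ) [NeZero M] {d d' : ℕ} [NeZero d] [NeZero d'] (hd : d ∣ M)
    (hd' : d' ∣ M) (h : d = d') : s36w_gen M d hd = s36w_gen M d' hd' := by
  subst h
  rfl

/-- **`W (j(X^{e f})) = j(X^{e f'})`** for `e ∣ N`, `f f' = l`. -/
theorem s36w_W_gen {e f f' : ℕ} [NeZero (e * f)] [NeZero (e * f')] (he : e ∣ N)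
    (hl : l = f * f') (hd1 : e * f ∣ N * l) (hd2 : e * f' ∣ N * l) :
    s36w_W h (s36w_gen (N * l) (e * f) hd1) = s36w_gen (N * l) (e * f') hd2 := by
  rw [s36w_gen, s36w_W_algebraMap, s36w_W0_barGen h he hl hd1 hd2]
  rfl

/-- `W ∘ W = id` on `A0 (N l)`. -/
theorem s36w_W0_W0 : (s36w_W0 h).comp (s36w_W0 h) = AlgHom.id Kbar (A0 (N * l)) := by
  refine AlgHom.ext_of_eq_adjoin (S := A0 (N * l)) (s := barGens (N * l)) rfl ?_
  rintro x ⟨d, hd, hdN, rfl⟩
  haveI := hd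
  obtain ⟨e, f, ⟨e', he'⟩, ⟨f', hf'⟩, hdef⟩ := (Nat.dvd_mul).1 hdN
  subst hdef
  have he0 : e ≠ 0 := by
    intro h0; subst h0; exact NeZero.ne N (by rw [he', zero_mul])
  have hf'0 : f' ≠ 0 := by
    intro h0; subst h0; exact NeZero.ne l (by rw [hf', mul_zero])
  haveI : NeZero (e * f') := ⟨Nat.mul_ne_zero he0 hf'0⟩
  have hd' : e * f' ∣ N * l := Nat.mul_dvd_mul ⟨e', he'⟩ ⟨f, by rw [hf', mul_comm]⟩
  change s36w_W0 h (s36w_W0 h ⟨barGen (e * f), _⟩) = ⟨barGen (e * f), _⟩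
  rw [s36w_W0_barGen h ⟨e', he'⟩ hf' hdN hd',
    s36w_W0_barGen h ⟨e', he'⟩ (by rw [hf', mul_comm]) hd' hdN]

theorem s36w_W0_W0_apply (x : A0 (N * l)) : s36w_W0 h (s36w_W0 h x) = x :=
  DFunLike.congr_fun (s36w_W0_W0 h) x

/-- **`W ∘ W = id`**. -/
theorem s36w_W_W (x : Fbar (N * l)) : s36w_W h (s36w_W h x) = x := by
  obtain ⟨r, s, -, rfl⟩ := nls_exists_div x
  rw [map_div₀, map_div₀, s36w_W_algebraMap, s36w_W_algebraMap, s36w_W_algebraMap,
    s36w_W_algebraMap, s36w_W0_W0_apply, s36w_W0_W0_apply]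

theorem s36w_W_injective : Function.Injective (s36w_W h) :=
  (s36w_W h).toRingHom.injective

theorem s36w_W_bijective : Function.Bijective (s36w_W h) :=
  ⟨s36w_W_injective h, fun x => ⟨s36w_W h x, s36w_W_W h x⟩⟩

/-- the Atkin–Lehner involution as an algebra automorphism. -/
noncomputable def s36w_Wequiv : Fbar (N * l) ≃ₐ[Kbar] Fbar (N * l) :=
  AlgEquiv.ofAlgHom (s36w_W h) (s36w_W h)
    (AlgHom.ext fun x => s36w_W_W h x) (AlgHom.ext fun x => s36w_W_W h x)

theorem s36w_Wequiv_apply (x : Fbar (N * l)) : s36w_Wequiv h x = s36w_W h x := rfl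

/-- two algebra endomorphisms of `F̄_M` (or maps into any field) which agree on the generators
`j(X^d)`, `d ∣ M`, are equal. -/
theorem s36w_algHom_ext {M : ℕ} [NeZero M] {E : Type*} [Field E] [Algebra Kbar E]
    (φ ψ : Fbar M →ₐ[Kbar] E)
    (hgen : ∀ (d : ℕ) [NeZero d] (hd : d ∣ M), φ (s36w_gen M d hd) = ψ (s36w_gen M d hd)) :
    φ = ψ := by
  have e : (φ.comp (IsScalarTower.toAlgHom Kbar (A0 M) (Fbar M))) =
      (ψ.comp (IsScalarTower.toAlgHom Kbar (A0 M) (Fbar M))) := by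
    refine AlgHom.ext_of_eq_adjoin (S := A0 M) (s := barGens M) rfl ?_
    rintro x ⟨d, hd, hdN, rfl⟩
    haveI := hd
    exact hgen d hdN
  refine AlgHom.ext fun x => ?_
  obtain ⟨r, s, -, rfl⟩ := nls_exists_div x
  have er := DFunLike.congr_fun e r
  have es := DFunLike.congr_fun e s
  simp only [AlgHom.comp_apply, IsScalarTower.coe_toAlgHom'] at er es
  rw [map_div₀, map_div₀, er, es]

end Swap2

/-! ### the same map on `F̄_M`, `M = N * l` -/

section Of

variable {M N l : ℕ} [NeZero M] [NeZero N] [NeZero l] {a c : ℤ}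

/-- `W_l` on `F̄_M` for `M = N * l`. -/
noncomputable def s36w_Wof (hM : M = N * l) (h : (l : ℤ) * a - N * c = 1) :
    Fbar M →ₐ[Kbar] Fbar M := by
  subst hM
  exact s36w_W h

theorem s36w_Wof_gen (hM : M = N * l) (h : (l : ℤ) * a - N * c = 1) {e f f' : ℕ}
    [NeZero (e * f)] [NeZero (e * f')] (he : e ∣ N) (hl : l = f * f') (hd1 : e * f ∣ M)
    (hd2 : e * f' ∣ M) :
    s36w_Wof hM h (s36w_gen M (e * f) hd1) = s36w_gen M (e * f') hd2 := by
  subst hM
  exact s36w_W_gen h he hl hd1 hd2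

theorem s36w_Wof_Wof (hM : M = N * l) (h : (l : ℤ) * a - N * c = 1) (x : Fbar M) :
    s36w_Wof hM h (s36w_Wof hM h x) = x := by
  subst hM
  exact s36w_W_W h x

/-- `W_l` on `F̄_M` as an automorphism. -/
noncomputable def s36w_WofEquiv (hM : M = N * l) (h : (l : ℤ) * a - N * c = 1) :
    Fbar M ≃ₐ[Kbar] Fbar M :=
  AlgEquiv.ofAlgHom (s36w_Wof hM h) (s36w_Wof hM h)
    (AlgHom.ext fun x => s36w_Wof_Wof hM h x) (AlgHom.ext fun x => s36w_Wof_Wof hM h x)

theorem s36w_WofEquiv_apply (hM : M = N * l) (h : (l : ℤ) * a - N * c = 1) (x : Fbar M) :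
    s36w_WofEquiv hM h x = s36w_Wof hM h x := rfl

end Of

end Fermat.Agent.S36
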