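/-
Project S36 (Carayol), cell [AL2] (helper17): the ATKIN–LEHNER INVOLUTION `W₂ = W_{q²}` on the
function field `F̄_{N' q q}` of `X₀(N' q²)` (`q ∤ N'` prime) and its compatibility with the degeneracy
maps of BOTH steps `N' → N' q → N' q q`:

  `α₁, β₁ : F̄_{N'} → F̄_{N' q}`,  `α₂, β₂ : F̄_{N' q} → F̄_{N' q q}`  (`α` = inclusion, `β = (X ↦ X^q)`).

* `s36w_W2_gen0 / _gen1 / _gen2` : `W₂ j(X^e) = j(X^{e q q})`, `W₂ j(X^{e q}) = j(X^{e q})`,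
  `W₂ j(X^{e q q}) = j(X^e)` for `e ∣ N'`;
* `s36w_W2_alpha_W1 : W₂ ∘ α₂ = β₂ ∘ W₁`, `s36w_W2_beta_W1 : W₂ ∘ β₂ = α₂ ∘ W₁` for ANY `W₁` on
  `F̄_{N' q}` with `W₁ ∘ α₁ = β₁`, `W₁ ∘ β₁ = α₁` (e.g. helper24's `nls_W`);
* `s36w_W2_aa : W₂ ∘ α₂ ∘ α₁ = β₂ ∘ β₁`, `s36w_W2_bb : W₂ ∘ β₂ ∘ β₁ = α₂ ∘ α₁`,
  `s36w_W2_ba : W₂ ∘ β₂ ∘ α₁ = β₂ ∘ α₁` (the middle copy of `F̄_{N'}` is FIXED), and
  `s36w_beta_alpha : β₂ ∘ α₁ = α₂ ∘ β₁`;
* `s36w_exists_W2` : the packaged existence statement.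
Prefix `s36w_`.
-/
import Mathlib
import Fermat.Agent.S36.AL2.Swap

set_option autoImplicit false
set_option linter.unusedSectionVars false
set_option linter.style.haveILetI false
set_option linter.unusedVariables false

namespace Fermat.Agent.S36

open UpperHalfPlane Matrix ModularCurve
open Fermat.Agent.S24 Fermat.Agent.S23 Fermat.Agent.JT3

section Gen

variable {N l : ℕ} [NeZero N] [NeZero l]

/-- `α (j(X^d)) = j(X^d)`. -/
theorem s36w_alpha_gen {d : ℕ} [NeZero d] (hd : d ∣ N) (hd1 : d ∣ N * l) :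
    heckeAlphaBar Kbar N l (s36w_gen N d hd) = s36w_gen (N * l) d hd1 :=
  nls_alpha_gen hd hd1

/-- `β (j(X^d)) = j(X^{l d})`. -/
theorem s36w_beta_gen {d : ℕ} [NeZero d] [NeZero (l * d)] (hd : d ∣ N) (hd2 : l * d ∣ N * l) :
    heckeBetaBar Kbar N l (s36w_gen N d hd) = s36w_gen (N * l) (l * d) hd2 :=
  nls_beta_gen hd hd2

end Gen

section Level2

variable {N' q : ℕ} [NeZero N'] [NeZero q] {a c : ℤ}
  (h2 : ((q * q : ℕ) : ℤ) * a - N' * c = 1)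

/-- **the Atkin–Lehner involution `W_{q²}`** of `F̄_{N' q q}`. -/
noncomputable def s36w_W2 : Fbar (N' * q * q) →ₐ[Kbar] Fbar (N' * q * q) :=
  s36w_Wof (mul_assoc N' q q) h2

theorem s36w_W2_W2 (x : Fbar (N' * q * q)) : s36w_W2 h2 (s36w_W2 h2 x) = x :=
  s36w_Wof_Wof _ h2 x

/-- `W₂` as an automorphism. -/
noncomputable def s36w_W2equiv : Fbar (N' * q * q) ≃ₐ[Kbar] Fbar (N' * q * q) :=
  s36w_WofEquiv (mul_assoc N' q q) h2

theorem s36w_W2equiv_apply (x : Fbar (N' * q * q)) : s36w_W2equiv h2 x = s36w_W2 h2 x := rfl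

theorem s36w_W2_injective : Function.Injective (s36w_W2 h2) :=
  (s36w_W2 h2).toRingHom.injective

/-- `W₂ j(X^e) = j(X^{e q q})` for `e ∣ N'`. -/
theorem s36w_W2_gen0 {e : ℕ} [NeZero e] [NeZero (e * (q * q))] (he : e ∣ N')
    (hd1 : e ∣ N' * q * q) (hd2 : e * (q * q) ∣ N' * q * q) :
    s36w_W2 h2 (s36w_gen (N' * q * q) e hd1) = s36w_gen (N' * q * q) (e * (q * q)) hd2 := by
  haveI : NeZero (e * 1) := ⟨by rw [mul_one]; exact NeZero.ne e⟩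
  have hd1' : e * 1 ∣ N' * q * q := by rw [mul_one]; exact hd1
  rw [s36w_gen_congr (N' * q * q) hd1 hd1' (mul_one e).symm]
  exact s36w_Wof_gen (mul_assoc N' q q) h2 he (one_mul (q * q)).symm hd1' hd2

/-- `W₂ j(X^{e q q}) = j(X^e)` for `e ∣ N'`. -/
theorem s36w_W2_gen2 {e : ℕ} [NeZero e] [NeZero (e * (q * q))] (he : e ∣ N')
    (hd1 : e ∣ N' * q * q) (hd2 : e * (q * q) ∣ N' * q * q) :
    s36w_W2 h2 (s36w_gen (N' * q * q) (e * (q * q)) hd2) = s36w_gen (N' * q * q) e hd1 := by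
  haveI : NeZero (e * 1) := ⟨by rw [mul_one]; exact NeZero.ne e⟩
  have hd1' : e * 1 ∣ N' * q * q := by rw [mul_one]; exact hd1
  rw [s36w_gen_congr (N' * q * q) hd1 hd1' (mul_one e).symm]
  exact s36w_Wof_gen (mul_assoc N' q q) h2 he (mul_one (q * q)).symm hd2 hd1'

/-- `W₂ j(X^{e q}) = j(X^{e q})` for `e ∣ N'`. -/
theorem s36w_W2_gen1 {e : ℕ} [NeZero (e * q)] (he : e ∣ N') (hd : e * q ∣ N' * q * q) :
    s36w_W2 h2 (s36w_gen (N' * q * q) (e * q) hd) = s36w_gen (N' * q * q) (e * q) hd :=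
  s36w_Wof_gen (mul_assoc N' q q) h2 he rfl hd hd

/-- **`β₂ ∘ α₁ = α₂ ∘ β₁`** (the middle copy of `F̄_{N'}`). -/
theorem s36w_beta_alpha (x : Fbar N') :
    heckeBetaBar Kbar (N' * q) q (heckeAlphaBar Kbar N' q x) =
      heckeAlphaBar Kbar (N' * q) q (heckeBetaBar Kbar N' q x) := by
  apply Subtype.ext
  rw [coe_heckeBetaBar, coe_heckeAlphaBar, coe_heckeAlphaBar, coe_heckeBetaBar]

variable (hq : q.Prime) (hqN' : ¬ q ∣ N')
include hq hqN'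

/-- **`W₂ ∘ α₂ = β₂ ∘ W₁`**. -/
theorem s36w_W2_alpha_W1 (W1 : Fbar (N' * q) →ₐ[Kbar] Fbar (N' * q))
    (hW1a : ∀ x : Fbar N', W1 (heckeAlphaBar Kbar N' q x) = heckeBetaBar Kbar N' q x)
    (hW1b : ∀ x : Fbar N', W1 (heckeBetaBar Kbar N' q x) = heckeAlphaBar Kbar N' q x)
    (y : Fbar (N' * q)) :
    s36w_W2 h2 (heckeAlphaBar Kbar (N' * q) q y) = heckeBetaBar Kbar (N' * q) q (W1 y) := by
  have key : (s36w_W2 h2).comp (heckeAlphaBar Kbar (N' * q) q) =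
      (heckeBetaBar Kbar (N' * q) q).comp W1 := by
    refine s36w_algHom_ext _ _ ?_
    intro d hd0 hd
    haveI := hd0
    rcases nls_dvd_cases hq hqN' hd with hdN | ⟨e, rfl, heN⟩
    · -- `d ∣ N'`
      haveI : NeZero (q * d) := ⟨Nat.mul_ne_zero (NeZero.ne q) (NeZero.ne d)⟩
      haveI : NeZero (q * (q * d)) := ⟨Nat.mul_ne_zero (NeZero.ne q) (NeZero.ne (q * d))⟩
      haveI : NeZero (d * (q * q)) :=
        ⟨Nat.mul_ne_zero (NeZero.ne d) (Nat.mul_ne_zero (NeZero.ne q) (NeZero.ne q))⟩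
      have hqd : q * d ∣ N' * q := by rw [mul_comm N' q]; exact Nat.mul_dvd_mul_left q hdN
      have hqqd : q * (q * d) ∣ N' * q * q := by
        rw [mul_comm (N' * q) q]; exact Nat.mul_dvd_mul_left q hqd
      have hdqq : d * (q * q) ∣ N' * q * q := by
        rw [mul_assoc]; exact Nat.mul_dvd_mul_right hdN (q * q)
      have hd2 : d ∣ N' * q * q := Dvd.dvd.mul_right hd q
      have e1 : s36w_gen (N' * q) d hd = heckeAlphaBar Kbar N' q (s36w_gen N' d hdN) :=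
        (s36w_alpha_gen hdN hd).symm
      rw [AlgHom.comp_apply, AlgHom.comp_apply, s36w_alpha_gen hd hd2,
        s36w_W2_gen0 h2 hdN hd2 hdqq, e1, hW1a, s36w_beta_gen hdN hqd, s36w_beta_gen hqd hqqd]
      exact s36w_gen_congr _ _ _ (by ring)
    · -- `d = q * e`, `e ∣ N'`
      haveI : NeZero e := ⟨fun h0 => by subst h0; exact NeZero.ne (q * 0) (by simp)⟩
      haveI : NeZero (e * q) := ⟨Nat.mul_ne_zero (NeZero.ne e) (NeZero.ne q)⟩
      have heq : e ∣ N' * q := Dvd.dvd.mul_right heN q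
      have hd2 : q * e ∣ N' * q * q := Dvd.dvd.mul_right hd q
      have hd2' : e * q ∣ N' * q * q := by rw [mul_comm e q]; exact hd2
      have e1 : s36w_gen (N' * q) (q * e) hd = heckeBetaBar Kbar N' q (s36w_gen N' e heN) :=
        (s36w_beta_gen heN hd).symm
      rw [AlgHom.comp_apply, AlgHom.comp_apply, s36w_alpha_gen hd hd2,
        s36w_gen_congr (N' * q * q) hd2 hd2' (mul_comm q e), s36w_W2_gen1 h2 heN hd2', e1, hW1b,
        s36w_alpha_gen heN heq, s36w_beta_gen heq hd2]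
      exact s36w_gen_congr _ _ _ (mul_comm e q)
  exact DFunLike.congr_fun key y

/-- **`W₂ ∘ β₂ = α₂ ∘ W₁`**. -/
theorem s36w_W2_beta_W1 (W1 : Fbar (N' * q) →ₐ[Kbar] Fbar (N' * q))
    (hW1a : ∀ x : Fbar N', W1 (heckeAlphaBar Kbar N' q x) = heckeBetaBar Kbar N' q x)
    (hW1b : ∀ x : Fbar N', W1 (heckeBetaBar Kbar N' q x) = heckeAlphaBar Kbar N' q x)
    (y : Fbar (N' * q)) :
    s36w_W2 h2 (heckeBetaBar Kbar (N' * q) q y) = heckeAlphaBar Kbar (N' * q) q (W1 y) := by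
  have hW1W1 : ∀ z : Fbar (N' * q), W1 (W1 z) = z := by
    intro z
    have key : W1.comp W1 = AlgHom.id Kbar (Fbar (N' * q)) := by
      refine s36w_algHom_ext _ _ ?_
      intro d hd0 hd
      haveI := hd0
      rcases nls_dvd_cases hq hqN' hd with hdN | ⟨e, rfl, heN⟩
      · rw [AlgHom.comp_apply, ← s36w_alpha_gen hdN hd, hW1a, hW1b]
        rfl
      · haveI : NeZero e := ⟨fun h0 => by subst h0; exact NeZero.ne (q * 0) (by simp)⟩
        rw [AlgHom.comp_apply, ← s36w_beta_gen heN hd, hW1b, hW1a]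
        rfl
    exact DFunLike.congr_fun key z
  have h1 := s36w_W2_alpha_W1 h2 hq hqN' W1 hW1a hW1b (W1 y)
  rw [hW1W1] at h1
  rw [← h1, s36w_W2_W2]

/-- **`W₂ ∘ α₂ ∘ α₁ = β₂ ∘ β₁`**. -/
theorem s36w_W2_aa (x : Fbar N') :
    s36w_W2 h2 (heckeAlphaBar Kbar (N' * q) q (heckeAlphaBar Kbar N' q x)) =
      heckeBetaBar Kbar (N' * q) q (heckeBetaBar Kbar N' q x) := by
  obtain ⟨W1, hW1a, hW1b⟩ := nls_exists_W N' q hq hqN'
  rw [s36w_W2_alpha_W1 h2 hq hqN' W1 hW1a hW1b, hW1a]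

/-- **`W₂ ∘ β₂ ∘ β₁ = α₂ ∘ α₁`**. -/
theorem s36w_W2_bb (x : Fbar N') :
    s36w_W2 h2 (heckeBetaBar Kbar (N' * q) q (heckeBetaBar Kbar N' q x)) =
      heckeAlphaBar Kbar (N' * q) q (heckeAlphaBar Kbar N' q x) := by
  obtain ⟨W1, hW1a, hW1b⟩ := nls_exists_W N' q hq hqN'
  rw [s36w_W2_beta_W1 h2 hq hqN' W1 hW1a hW1b, hW1b]

/-- **`W₂` fixes the middle copy `β₂ α₁ F̄_{N'} = α₂ β₁ F̄_{N'}`**. -/
theorem s36w_W2_ba (x : Fbar N') :
    s36w_W2 h2 (heckeBetaBar Kbar (N' * q) q (heckeAlphaBar Kbar N' q x)) =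
      heckeBetaBar Kbar (N' * q) q (heckeAlphaBar Kbar N' q x) := by
  obtain ⟨W1, hW1a, hW1b⟩ := nls_exists_W N' q hq hqN'
  rw [s36w_W2_beta_W1 h2 hq hqN' W1 hW1a hW1b, hW1a, s36w_beta_alpha]

end Level2

section Exists

variable (N' q : ℕ) [NeZero N'] [NeZero q]

theorem s36w_coprime_sq (hq : q.Prime) (hqN' : ¬ q ∣ N') : Nat.Coprime (q * q) N' :=
  Nat.Coprime.mul_left ((Nat.Prime.coprime_iff_not_dvd hq).mpr hqN')
    ((Nat.Prime.coprime_iff_not_dvd hq).mpr hqN')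

/-- **The Atkin–Lehner involution at `q²`**, packaged. -/
theorem s36w_exists_W2 (hq : q.Prime) (hqN' : ¬ q ∣ N') :
    ∃ W2 : Fbar (N' * q * q) ≃ₐ[Kbar] Fbar (N' * q * q),
      (∀ x, W2 (W2 x) = x) ∧
      (∀ (W1 : Fbar (N' * q) →ₐ[Kbar] Fbar (N' * q)),
        (∀ x : Fbar N', W1 (heckeAlphaBar Kbar N' q x) = heckeBetaBar Kbar N' q x) →
        (∀ x : Fbar N', W1 (heckeBetaBar Kbar N' q x) = heckeAlphaBar Kbar N' q x) →
        (∀ y : Fbar (N' * q),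
          W2 (heckeAlphaBar Kbar (N' * q) q y) = heckeBetaBar Kbar (N' * q) q (W1 y)) ∧
        (∀ y : Fbar (N' * q),
          W2 (heckeBetaBar Kbar (N' * q) q y) = heckeAlphaBar Kbar (N' * q) q (W1 y))) ∧
      (∀ x : Fbar N', W2 (heckeAlphaBar Kbar (N' * q) q (heckeAlphaBar Kbar N' q x)) =
        heckeBetaBar Kbar (N' * q) q (heckeBetaBar Kbar N' q x)) ∧
      (∀ x : Fbar N', W2 (heckeBetaBar Kbar (N' * q) q (heckeBetaBar Kbar N' q x)) =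
        heckeAlphaBar Kbar (N' * q) q (heckeAlphaBar Kbar N' q x)) ∧
      (∀ x : Fbar N', W2 (heckeBetaBar Kbar (N' * q) q (heckeAlphaBar Kbar N' q x)) =
        heckeBetaBar Kbar (N' * q) q (heckeAlphaBar Kbar N' q x)) := by
  haveI : NeZero (q * q) := ⟨Nat.mul_ne_zero (NeZero.ne q) (NeZero.ne q)⟩
  obtain ⟨a, c, h2⟩ := s36w_exists_bezout (N := N') (l := q * q) (s36w_coprime_sq N' q hq hqN')
  refine ⟨s36w_W2equiv h2, fun x => s36w_W2_W2 h2 x, fun W1 ha hb => ⟨fun y => ?_, fun y => ?_⟩,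
    fun x => s36w_W2_aa h2 hq hqN' x, fun x => s36w_W2_bb h2 hq hqN' x,
    fun x => s36w_W2_ba h2 hq hqN' x⟩
  · exact s36w_W2_alpha_W1 h2 hq hqN' W1 ha hb y
  · exact s36w_W2_beta_W1 h2 hq hqN' W1 ha hb y

end Exists

end Fermat.Agent.S36
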