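/-
Project S36 (Carayol), cell [AL2] (helper17): the ATKIN–LEHNER INVOLUTION `W₂ = W_{q²}` on the
level-`N' q q` function field `lg_F L (N' q q) = L(j(X^d) : d ∣ N' q q) ⊆ L((X))` over a field `L ⊆ Q̄`
of characteristic zero (`q ∤ N'` prime).  Twin of `SS/Model/AL.lean` (the involution `W_q` at level
`N' q`).

The `Q̄`-algebra involution `s36w_Wbar2` of `F̄_{N' q q}` (from `s36w_exists_W2`) permutes the generators
`j(X^e) ↔ j(X^{q q e})` and fixes `j(X^{q e})` (`e ∣ N'`); hence it maps the image of `lg_F L (N' q q)`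
under the coefficient embedding `L((X)) → Q̄((X))` to itself; the restriction is the `L`-algebra
involution `s36w_WF` with

* `s36w_WF_of_mem`     : `W₂ x = x(X^{q q})`     for `x ∈ lg_F L N'`,
* `s36w_WF_mid_of_mem` : `W₂ (x(X^q)) = x(X^q)`  for `x ∈ lg_F L N'`,
* `s36w_WF_top_of_mem` : `W₂ (x(X^{q q})) = x`   for `x ∈ lg_F L N'`,
* `s36w_WF_WF`         : `W₂ ∘ W₂ = id`,
* `s36w_WF_alpha / s36w_WF_beta` : `W₂ y = (W₁ y)(X^q)` and `W₂ (y(X^q)) = W₁ y` for
  `y ∈ lg_F L (N' q)` (`W₁ = ssm_al_W L N' q`),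
* `s36w_WF_coeffMapF`  : `W₂` commutes with the coefficientwise action of any `σ : L →+* L`.

Prefix `s36w_`.
-/
import Mathlib
import Fermat.Agent.S36.AL2.Level2
import Fermat.Agent.SS.Model.AL

set_option autoImplicit false
set_option linter.unusedSectionVars false
set_option linter.unusedVariables false
set_option linter.style.haveILetI false

noncomputable section

open ModularCurve IntermediateField
open Fermat.Agent.JT3 Fermat.Agent.S24 Fermat.Agent.S28 Fermat.Agent.SS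

namespace Fermat.Agent.S36

/-! ### the involution over `Q̄` -/

section Wbar2

variable (N' q : ℕ) [NeZero N'] [NeZero q] (hq : q.Prime) (hqN' : ¬ q ∣ N')

/-- the Atkin–Lehner involution `W_{q²}` of `F̄_{N' q q}`. -/
def s36w_Wbar2 : Fbar (N' * q * q) ≃ₐ[AlgebraicClosure ℚ] Fbar (N' * q * q) :=
  (s36w_exists_W2 N' q hq hqN').choose

theorem s36w_Wbar2_Wbar2 (x : Fbar (N' * q * q)) :
    s36w_Wbar2 N' q hq hqN' (s36w_Wbar2 N' q hq hqN' x) = x :=
  (s36w_exists_W2 N' q hq hqN').choose_spec.1 x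

theorem s36w_Wbar2_alpha (y : Fbar (N' * q)) :
    s36w_Wbar2 N' q hq hqN' (heckeAlphaBar (AlgebraicClosure ℚ) (N' * q) q y) =
      heckeBetaBar (AlgebraicClosure ℚ) (N' * q) q (ssm_al_Wbar N' q hq hqN' y) :=
  ((s36w_exists_W2 N' q hq hqN').choose_spec.2.1 (ssm_al_Wbar N' q hq hqN')
    (ssm_al_Wbar_alpha N' q hq hqN') (ssm_al_Wbar_beta N' q hq hqN')).1 y

theorem s36w_Wbar2_beta (y : Fbar (N' * q)) :
    s36w_Wbar2 N' q hq hqN' (heckeBetaBar (AlgebraicClosure ℚ) (N' * q) q y) =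
      heckeAlphaBar (AlgebraicClosure ℚ) (N' * q) q (ssm_al_Wbar N' q hq hqN' y) :=
  ((s36w_exists_W2 N' q hq hqN').choose_spec.2.1 (ssm_al_Wbar N' q hq hqN')
    (ssm_al_Wbar_alpha N' q hq hqN') (ssm_al_Wbar_beta N' q hq hqN')).2 y

theorem s36w_Wbar2_aa (x : Fbar N') :
    s36w_Wbar2 N' q hq hqN' (heckeAlphaBar (AlgebraicClosure ℚ) (N' * q) q
        (heckeAlphaBar (AlgebraicClosure ℚ) N' q x)) =
      heckeBetaBar (AlgebraicClosure ℚ) (N' * q) q (heckeBetaBar (AlgebraicClosure ℚ) N' q x) :=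
  (s36w_exists_W2 N' q hq hqN').choose_spec.2.2.1 x

theorem s36w_Wbar2_bb (x : Fbar N') :
    s36w_Wbar2 N' q hq hqN' (heckeBetaBar (AlgebraicClosure ℚ) (N' * q) q
        (heckeBetaBar (AlgebraicClosure ℚ) N' q x)) =
      heckeAlphaBar (AlgebraicClosure ℚ) (N' * q) q (heckeAlphaBar (AlgebraicClosure ℚ) N' q x) :=
  (s36w_exists_W2 N' q hq hqN').choose_spec.2.2.2.1 x

theorem s36w_Wbar2_ba (x : Fbar N') :
    s36w_Wbar2 N' q hq hqN' (heckeBetaBar (AlgebraicClosure ℚ) (N' * q) q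
        (heckeAlphaBar (AlgebraicClosure ℚ) N' q x)) =
      heckeBetaBar (AlgebraicClosure ℚ) (N' * q) q (heckeAlphaBar (AlgebraicClosure ℚ) N' q x) :=
  (s36w_exists_W2 N' q hq hqN').choose_spec.2.2.2.2 x

end Wbar2

/-! ### the divisors of `N' q q` -/

theorem s36w_dvd_cases2 {N' q : ℕ} (hq : q.Prime) {d : ℕ} (hd : d ∣ N' * q * q) :
    (d ∣ N') ∨ (∃ e, d = q * e ∧ e ∣ N') ∨ (∃ e, d = q * (q * e) ∧ e ∣ N') := by
  rw [mul_assoc] at hd
  obtain ⟨e, f, he, hf, rfl⟩ := (Nat.dvd_mul).1 hd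
  have hf2 : f ∣ q ^ 2 := by rw [pow_two]; exact hf
  obtain ⟨i, hi, rfl⟩ := (Nat.dvd_prime_pow hq).1 hf2
  interval_cases i
  · left
    rw [pow_zero, mul_one]
    exact he
  · right; left
    exact ⟨e, by rw [pow_one, mul_comm], he⟩
  · right; right
    exact ⟨e, by ring, he⟩

/-! ### restriction to `L` -/

section Restrict

variable (L : Type*) [Field L] [CharZero L] [Algebra L (AlgebraicClosure ℚ)]
  (N' q : ℕ) [NeZero N'] [NeZero q] (hq : q.Prime) (hqN' : ¬ q ∣ N')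

theorem s36w_mem0 {x : LaurentSeries L} (hx : x ∈ lg_F L N') : x ∈ lg_F L (N' * q * q) :=
  ssm_al_mem_of_mem L (N' * q) q (ssm_al_mem_of_mem L N' q hx)

theorem s36w_mem1 {x : LaurentSeries L} (hx : x ∈ lg_F L N') :
    qExpand L q x ∈ lg_F L (N' * q * q) :=
  ssm_al_mem_of_mem L (N' * q) q (ssm_al_expand_mem L N' q hx)

theorem s36w_mem2 {x : LaurentSeries L} (hx : x ∈ lg_F L N') :
    qExpand L q (qExpand L q x) ∈ lg_F L (N' * q * q) :=
  ssm_al_expand_mem L (N' * q) q (ssm_al_expand_mem L N' q hx)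

/-- `W̄₂ (ι x) = ι (x(X^{q q}))` for `x ∈ F_{N'}(L)`. -/
theorem s36w_Wbar2_iota_of_mem {x : LaurentSeries L} (hx : x ∈ lg_F L N')
    (h : ssm_al_iota L x ∈ modularFunctionFieldBar (N' * q * q)) :
    ((s36w_Wbar2 N' q hq hqN' ⟨ssm_al_iota L x, h⟩ : Fbar (N' * q * q)) :
      LaurentSeries (AlgebraicClosure ℚ)) = ssm_al_iota L (qExpand L q (qExpand L q x)) := by
  have e : (⟨ssm_al_iota L x, h⟩ : Fbar (N' * q * q)) =
      heckeAlphaBar (AlgebraicClosure ℚ) (N' * q) q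
        (heckeAlphaBar (AlgebraicClosure ℚ) N' q ⟨ssm_al_iota L x, ssm_al_iota_mem L N' hx⟩) :=
    Subtype.ext rfl
  rw [e, s36w_Wbar2_aa, coe_heckeBetaBar, coe_heckeBetaBar, ssm_al_iota_qExpand,
    ssm_al_iota_qExpand]

/-- `W̄₂ (ι (x(X^q))) = ι (x(X^q))` for `x ∈ F_{N'}(L)`. -/
theorem s36w_Wbar2_iota_mid_of_mem {x : LaurentSeries L} (hx : x ∈ lg_F L N')
    (h : ssm_al_iota L (qExpand L q x) ∈ modularFunctionFieldBar (N' * q * q)) :
    ((s36w_Wbar2 N' q hq hqN' ⟨ssm_al_iota L (qExpand L q x), h⟩ : Fbar (N' * q * q)) :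
      LaurentSeries (AlgebraicClosure ℚ)) = ssm_al_iota L (qExpand L q x) := by
  have e : (⟨ssm_al_iota L (qExpand L q x), h⟩ : Fbar (N' * q * q)) =
      heckeBetaBar (AlgebraicClosure ℚ) (N' * q) q
        (heckeAlphaBar (AlgebraicClosure ℚ) N' q
          ⟨ssm_al_iota L x, ssm_al_iota_mem L N' hx⟩) := by
    apply Subtype.ext
    rw [coe_heckeBetaBar, coe_heckeAlphaBar]
    exact ssm_al_iota_qExpand L q x
  rw [e, s36w_Wbar2_ba, coe_heckeBetaBar, coe_heckeAlphaBar]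
  exact (ssm_al_iota_qExpand L q x).symm

/-- `W̄₂ (ι (x(X^{q q}))) = ι x` for `x ∈ F_{N'}(L)`. -/
theorem s36w_Wbar2_iota_top_of_mem {x : LaurentSeries L} (hx : x ∈ lg_F L N')
    (h : ssm_al_iota L (qExpand L q (qExpand L q x)) ∈ modularFunctionFieldBar (N' * q * q)) :
    ((s36w_Wbar2 N' q hq hqN' ⟨ssm_al_iota L (qExpand L q (qExpand L q x)), h⟩ :
      Fbar (N' * q * q)) : LaurentSeries (AlgebraicClosure ℚ)) = ssm_al_iota L x := by
  have e : (⟨ssm_al_iota L (qExpand L q (qExpand L q x)), h⟩ : Fbar (N' * q * q)) =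
      heckeBetaBar (AlgebraicClosure ℚ) (N' * q) q
        (heckeBetaBar (AlgebraicClosure ℚ) N' q
          ⟨ssm_al_iota L x, ssm_al_iota_mem L N' hx⟩) := by
    apply Subtype.ext
    rw [coe_heckeBetaBar, coe_heckeBetaBar]
    exact (ssm_al_iota_qExpand L q _).trans (congrArg _ (ssm_al_iota_qExpand L q x))
  rw [e, s36w_Wbar2_bb, coe_heckeAlphaBar, coe_heckeAlphaBar]

include hq in
/-- the three shapes of the generators of `lg_F L (N' q q)`. -/
theorem s36w_gen_cases {d : ℕ} [NeZero d] (hd : d ∣ N' * q * q) :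
    (∃ x ∈ lg_F L N', qExpand L d (jqModC L) = x) ∨
    (∃ x ∈ lg_F L N', qExpand L d (jqModC L) = qExpand L q x) ∨
    (∃ x ∈ lg_F L N', qExpand L d (jqModC L) = qExpand L q (qExpand L q x)) := by
  rcases s36w_dvd_cases2 hq hd with hdN | ⟨e, rfl, heN⟩ | ⟨e, rfl, heN⟩
  · left
    exact ⟨_, jqModCd_mem_full L N' hdN, rfl⟩
  · right; left
    haveI : NeZero e := ⟨fun h0 => by subst h0; exact NeZero.ne (q * 0) (by simp)⟩
    exact ⟨_, jqModCd_mem_full L N' heN, by rw [qExpand_qExpand]⟩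
  · right; right
    haveI : NeZero e := ⟨fun h0 => by subst h0; exact NeZero.ne (q * (q * 0)) (by simp)⟩
    haveI : NeZero (q * e) := ⟨Nat.mul_ne_zero (NeZero.ne q) (NeZero.ne e)⟩
    refine ⟨_, jqModCd_mem_full L N' heN, ?_⟩
    rw [qExpand_qExpand, qExpand_qExpand]
    exact qExpand_congr (by ring) _

/-- **stability**: `W̄₂` maps the image of `F_{N' q q}(L)` into itself. -/
theorem s36w_exists {x : LaurentSeries L} (hx : x ∈ lg_F L (N' * q * q)) :
    ∀ h : ssm_al_iota L x ∈ modularFunctionFieldBar (N' * q * q),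
      ∃ y ∈ lg_F L (N' * q * q),
        ((s36w_Wbar2 N' q hq hqN' ⟨ssm_al_iota L x, h⟩ : Fbar (N' * q * q)) :
          LaurentSeries (AlgebraicClosure ℚ)) = ssm_al_iota L y := by
  have hx' : x ∈ IntermediateField.adjoin L (divisorExpansionsC L (N' * q * q)) := hx
  clear hx
  induction hx' using IntermediateField.adjoin_induction with
  | mem y hy =>
    intro h
    obtain ⟨d, hd, hdN, rfl⟩ := hy
    have := hd
    rcases s36w_gen_cases L N' q hq hdN with ⟨x, hx, e1⟩ | ⟨x, hx, e1⟩ | ⟨x, hx, e1⟩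
    · have h' := h
      rw [e1] at h'
      refine ⟨_, s36w_mem2 L N' q hx, ?_⟩
      rw [← s36w_Wbar2_iota_of_mem L N' q hq hqN' hx h']
      congr 2
      exact Subtype.ext (congrArg (ssm_al_iota L) e1)
    · have h' := h
      rw [e1] at h'
      refine ⟨_, s36w_mem1 L N' q hx, ?_⟩
      rw [← s36w_Wbar2_iota_mid_of_mem L N' q hq hqN' hx h']
      congr 2
      exact Subtype.ext (congrArg (ssm_al_iota L) e1)
    · have h' := h
      rw [e1] at h'
      refine ⟨_, s36w_mem0 L N' q hx, ?_⟩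
      rw [← s36w_Wbar2_iota_top_of_mem L N' q hq hqN' hx h']
      congr 2
      exact Subtype.ext (congrArg (ssm_al_iota L) e1)
  | algebraMap r =>
    intro h
    refine ⟨algebraMap L (LaurentSeries L) r, (lg_F L (N' * q * q)).algebraMap_mem r, ?_⟩
    have e : (⟨ssm_al_iota L (algebraMap L (LaurentSeries L) r), h⟩ : Fbar (N' * q * q)) =
        algebraMap (AlgebraicClosure ℚ) (Fbar (N' * q * q))
          (algebraMap L (AlgebraicClosure ℚ) r) :=
      Subtype.ext (ssm_al_iota_algebraMap L r)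
    rw [e, AlgEquiv.commutes, ssm_al_iota_algebraMap]
    rfl
  | add x y hx hy ihx ihy =>
    intro h
    have hx1 : x ∈ lg_F L (N' * q * q) := hx
    have hy1 : y ∈ lg_F L (N' * q * q) := hy
    obtain ⟨x', hx', ex⟩ := ihx (ssm_al_iota_mem L (N' * q * q) hx1)
    obtain ⟨y', hy', ey⟩ := ihy (ssm_al_iota_mem L (N' * q * q) hy1)
    refine ⟨x' + y', add_mem hx' hy', ?_⟩
    have e : (⟨ssm_al_iota L (x + y), h⟩ : Fbar (N' * q * q)) =
        ⟨ssm_al_iota L x, ssm_al_iota_mem L (N' * q * q) hx1⟩ +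
          ⟨ssm_al_iota L y, ssm_al_iota_mem L (N' * q * q) hy1⟩ := Subtype.ext (map_add _ _ _)
    rw [e, map_add, map_add, ← ex, ← ey]
    rfl
  | inv x hx ihx =>
    intro h
    have hx1 : x ∈ lg_F L (N' * q * q) := hx
    obtain ⟨x', hx', ex⟩ := ihx (ssm_al_iota_mem L (N' * q * q) hx1)
    refine ⟨x'⁻¹, inv_mem hx', ?_⟩
    have e : (⟨ssm_al_iota L x⁻¹, h⟩ : Fbar (N' * q * q)) =
        (⟨ssm_al_iota L x, ssm_al_iota_mem L (N' * q * q) hx1⟩ : Fbar (N' * q * q))⁻¹ :=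
      Subtype.ext (map_inv₀ _ _)
    rw [e, map_inv₀, map_inv₀, ← ex]
    rfl
  | mul x y hx hy ihx ihy =>
    intro h
    have hx1 : x ∈ lg_F L (N' * q * q) := hx
    have hy1 : y ∈ lg_F L (N' * q * q) := hy
    obtain ⟨x', hx', ex⟩ := ihx (ssm_al_iota_mem L (N' * q * q) hx1)
    obtain ⟨y', hy', ey⟩ := ihy (ssm_al_iota_mem L (N' * q * q) hy1)
    refine ⟨x' * y', mul_mem hx' hy', ?_⟩
    have e : (⟨ssm_al_iota L (x * y), h⟩ : Fbar (N' * q * q)) =
        ⟨ssm_al_iota L x, ssm_al_iota_mem L (N' * q * q) hx1⟩ *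
          ⟨ssm_al_iota L y, ssm_al_iota_mem L (N' * q * q) hy1⟩ := Subtype.ext (map_mul _ _ _)
    rw [e, map_mul, map_mul, ← ex, ← ey]
    rfl

/-- the underlying function of `W₂` over `L` -/
def s36w_WFfun (x : lg_F L (N' * q * q)) : lg_F L (N' * q * q) :=
  ⟨(s36w_exists L N' q hq hqN' x.2 (ssm_al_iota_mem L (N' * q * q) x.2)).choose,
    (s36w_exists L N' q hq hqN' x.2 (ssm_al_iota_mem L (N' * q * q) x.2)).choose_spec.1⟩

theorem s36w_WFfun_spec (x : lg_F L (N' * q * q)) :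
    ssm_al_iotaF L (N' * q * q) (s36w_WFfun L N' q hq hqN' x) =
      s36w_Wbar2 N' q hq hqN' (ssm_al_iotaF L (N' * q * q) x) :=
  Subtype.ext
    (s36w_exists L N' q hq hqN' x.2 (ssm_al_iota_mem L (N' * q * q) x.2)).choose_spec.2.symm

theorem s36w_WFfun_eq (x y : lg_F L (N' * q * q))
    (h : ssm_al_iotaF L (N' * q * q) y =
      s36w_Wbar2 N' q hq hqN' (ssm_al_iotaF L (N' * q * q) x)) :
    s36w_WFfun L N' q hq hqN' x = y := by
  apply ssm_al_iotaF_injective L (N' * q * q)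
  rw [s36w_WFfun_spec, h]

/-- `W₂` over `L`, as an `L`-algebra endomorphism of `F_{N' q q}(L)` -/
def s36w_WFhom : lg_F L (N' * q * q) →ₐ[L] lg_F L (N' * q * q) where
  toFun := s36w_WFfun L N' q hq hqN'
  map_one' := s36w_WFfun_eq L N' q hq hqN' _ _ (by rw [map_one, map_one])
  map_mul' x y := s36w_WFfun_eq L N' q hq hqN' _ _ (by
    rw [map_mul, map_mul, map_mul, s36w_WFfun_spec, s36w_WFfun_spec])
  map_zero' := s36w_WFfun_eq L N' q hq hqN' _ _ (by rw [map_zero, map_zero])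
  map_add' x y := s36w_WFfun_eq L N' q hq hqN' _ _ (by
    rw [map_add, map_add, map_add, s36w_WFfun_spec, s36w_WFfun_spec])
  commutes' r := s36w_WFfun_eq L N' q hq hqN' _ _ (by
    rw [ssm_al_iotaF_algebraMap, AlgEquiv.commutes])

theorem s36w_WFhom_spec (x : lg_F L (N' * q * q)) :
    ssm_al_iotaF L (N' * q * q) (s36w_WFhom L N' q hq hqN' x) =
      s36w_Wbar2 N' q hq hqN' (ssm_al_iotaF L (N' * q * q) x) :=
  s36w_WFfun_spec L N' q hq hqN' x

/-- `W₂ ∘ W₂ = id`. -/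
theorem s36w_WFhom_WFhom (x : lg_F L (N' * q * q)) :
    s36w_WFhom L N' q hq hqN' (s36w_WFhom L N' q hq hqN' x) = x := by
  apply ssm_al_iotaF_injective L (N' * q * q)
  rw [s36w_WFhom_spec, s36w_WFhom_spec, s36w_Wbar2_Wbar2]

/-- **[AL2]**: the Atkin–Lehner involution `W_{q²}` of `F_{N' q q}(L) = lg_F L (N' q q)`. -/
def s36w_WF : lg_F L (N' * q * q) ≃ₐ[L] lg_F L (N' * q * q) :=
  AlgEquiv.ofAlgHom (s36w_WFhom L N' q hq hqN') (s36w_WFhom L N' q hq hqN')
    (AlgHom.ext fun x => s36w_WFhom_WFhom L N' q hq hqN' x)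
    (AlgHom.ext fun x => s36w_WFhom_WFhom L N' q hq hqN' x)

theorem s36w_WF_apply (x : lg_F L (N' * q * q)) :
    s36w_WF L N' q hq hqN' x = s36w_WFhom L N' q hq hqN' x := rfl

theorem s36w_WF_symm : (s36w_WF L N' q hq hqN').symm = s36w_WF L N' q hq hqN' :=
  AlgEquiv.ext fun _ => rfl

/-- `W₂ ∘ W₂ = id`. -/
theorem s36w_WF_WF (x : lg_F L (N' * q * q)) :
    s36w_WF L N' q hq hqN' (s36w_WF L N' q hq hqN' x) = x :=
  s36w_WFhom_WFhom L N' q hq hqN' x

/-- the link with `Q̄`: `ι (W₂ x) = W̄₂ (ι x)`. -/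
theorem s36w_WF_spec (x : lg_F L (N' * q * q)) :
    ssm_al_iotaF L (N' * q * q) (s36w_WF L N' q hq hqN' x) =
      s36w_Wbar2 N' q hq hqN' (ssm_al_iotaF L (N' * q * q) x) :=
  s36w_WFfun_spec L N' q hq hqN' x

/-- characterisation: `W₂ x = y` as soon as `ι y = W̄₂ (ι x)`. -/
theorem s36w_WF_eq (x y : lg_F L (N' * q * q))
    (h : ssm_al_iotaF L (N' * q * q) y =
      s36w_Wbar2 N' q hq hqN' (ssm_al_iotaF L (N' * q * q) x)) :
    s36w_WF L N' q hq hqN' x = y :=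
  s36w_WFfun_eq L N' q hq hqN' x y h

/-- `W₂ x = x(X^{q q})` for `x ∈ F_{N'}(L)` (coercion form, arbitrary membership proof). -/
theorem s36w_coe_WF_of_mem {x : LaurentSeries L} (hx : x ∈ lg_F L N')
    (h : x ∈ lg_F L (N' * q * q)) :
    ((s36w_WF L N' q hq hqN' ⟨x, h⟩ : lg_F L (N' * q * q)) : LaurentSeries L) =
      qExpand L q (qExpand L q x) := by
  have := s36w_WF_eq L N' q hq hqN' ⟨x, h⟩ ⟨_, s36w_mem2 L N' q hx⟩ (Subtype.ext
    (s36w_Wbar2_iota_of_mem L N' q hq hqN' hx _).symm)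
  rw [this]

/-- `W₂ (x(X^q)) = x(X^q)` for `x ∈ F_{N'}(L)`. -/
theorem s36w_coe_WF_mid_of_mem {x : LaurentSeries L} (hx : x ∈ lg_F L N')
    (h : qExpand L q x ∈ lg_F L (N' * q * q)) :
    ((s36w_WF L N' q hq hqN' ⟨qExpand L q x, h⟩ : lg_F L (N' * q * q)) : LaurentSeries L) =
      qExpand L q x := by
  have := s36w_WF_eq L N' q hq hqN' ⟨qExpand L q x, h⟩ ⟨_, s36w_mem1 L N' q hx⟩ (Subtype.ext
    (s36w_Wbar2_iota_mid_of_mem L N' q hq hqN' hx _).symm)
  rw [this]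

/-- `W₂ (x(X^{q q})) = x` for `x ∈ F_{N'}(L)`. -/
theorem s36w_coe_WF_top_of_mem {x : LaurentSeries L} (hx : x ∈ lg_F L N')
    (h : qExpand L q (qExpand L q x) ∈ lg_F L (N' * q * q)) :
    ((s36w_WF L N' q hq hqN' ⟨qExpand L q (qExpand L q x), h⟩ : lg_F L (N' * q * q)) :
      LaurentSeries L) = x := by
  have := s36w_WF_eq L N' q hq hqN' ⟨qExpand L q (qExpand L q x), h⟩ ⟨_, s36w_mem0 L N' q hx⟩
    (Subtype.ext (s36w_Wbar2_iota_top_of_mem L N' q hq hqN' hx _).symm)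
  rw [this]

/-! ### compatibility with `W₁` at level `N' q` -/

/-- `W₂ y = (W₁ y)(X^q)` for `y ∈ F_{N' q}(L)`. -/
theorem s36w_coe_WF_alpha (y : lg_F L (N' * q))
    (h : (y : LaurentSeries L) ∈ lg_F L (N' * q * q)) :
    ((s36w_WF L N' q hq hqN' ⟨(y : LaurentSeries L), h⟩ : lg_F L (N' * q * q)) :
      LaurentSeries L) =
      qExpand L q ((ssm_al_W L N' q hq hqN' y : lg_F L (N' * q)) : LaurentSeries L) := by
  have hm : qExpand L q ((ssm_al_W L N' q hq hqN' y : lg_F L (N' * q)) : LaurentSeries L) ∈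
      lg_F L (N' * q * q) := ssm_al_expand_mem L (N' * q) q (ssm_al_W L N' q hq hqN' y).2
  have := s36w_WF_eq L N' q hq hqN' ⟨(y : LaurentSeries L), h⟩ ⟨_, hm⟩ ?_
  · rw [this]
  · have e : ssm_al_iotaF L (N' * q * q) ⟨(y : LaurentSeries L), h⟩ =
        heckeAlphaBar (AlgebraicClosure ℚ) (N' * q) q (ssm_al_iotaF L (N' * q) y) :=
      Subtype.ext rfl
    rw [e, s36w_Wbar2_alpha, ← ssm_al_W_spec]
    apply Subtype.ext
    rw [coe_heckeBetaBar, ssm_al_coe_iotaF, ssm_al_coe_iotaF]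
    exact ssm_al_iota_qExpand L q _

/-- `W₂ (y(X^q)) = W₁ y` for `y ∈ F_{N' q}(L)`. -/
theorem s36w_coe_WF_beta (y : lg_F L (N' * q))
    (h : qExpand L q (y : LaurentSeries L) ∈ lg_F L (N' * q * q)) :
    ((s36w_WF L N' q hq hqN' ⟨qExpand L q (y : LaurentSeries L), h⟩ : lg_F L (N' * q * q)) :
      LaurentSeries L) =
      ((ssm_al_W L N' q hq hqN' y : lg_F L (N' * q)) : LaurentSeries L) := by
  have hm : ((ssm_al_W L N' q hq hqN' y : lg_F L (N' * q)) : LaurentSeries L) ∈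
      lg_F L (N' * q * q) := ssm_al_mem_of_mem L (N' * q) q (ssm_al_W L N' q hq hqN' y).2
  have := s36w_WF_eq L N' q hq hqN' ⟨qExpand L q (y : LaurentSeries L), h⟩ ⟨_, hm⟩ ?_
  · rw [this]
  · have e : ssm_al_iotaF L (N' * q * q) ⟨qExpand L q (y : LaurentSeries L), h⟩ =
        heckeBetaBar (AlgebraicClosure ℚ) (N' * q) q (ssm_al_iotaF L (N' * q) y) := by
      apply Subtype.ext
      rw [coe_heckeBetaBar, ssm_al_coe_iotaF, ssm_al_coe_iotaF]
      exact ssm_al_iota_qExpand L q _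
    rw [e, s36w_Wbar2_beta, ← ssm_al_W_spec]
    exact Subtype.ext rfl

/-! ### compatibility with the coefficientwise action of endomorphisms of `L` -/

/-- **`W₂` commutes with the coefficientwise action of every ring endomorphism `σ` of `L`.** -/
theorem s36w_WF_coeffMapF (σ : L →+* L) (x : lg_F L (N' * q * q)) :
    s36w_WF L N' q hq hqN' (ssm_al_coeffMapF L σ (N' * q * q) x) =
      ssm_al_coeffMapF L σ (N' * q * q) (s36w_WF L N' q hq hqN' x) := by
  have key : ((s36w_WF L N' q hq hqN' : lg_F L (N' * q * q) →+* lg_F L (N' * q * q)).comp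
        (ssm_al_coeffMapF L σ (N' * q * q)) :
        IntermediateField.adjoin L (divisorExpansionsC L (N' * q * q)) →+*
          lg_F L (N' * q * q)) =
      (ssm_al_coeffMapF L σ (N' * q * q)).comp
        (s36w_WF L N' q hq hqN' : lg_F L (N' * q * q) →+* lg_F L (N' * q * q)) := by
    refine ssm_al_ringHom_ext (divisorExpansionsC L (N' * q * q)) _ _ (fun c => ?_) ?_
    · change s36w_WF L N' q hq hqN'
          (ssm_al_coeffMapF L σ (N' * q * q) (algebraMap L (lg_F L (N' * q * q)) c)) =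
        ssm_al_coeffMapF L σ (N' * q * q)
          (s36w_WF L N' q hq hqN' (algebraMap L (lg_F L (N' * q * q)) c))
      rw [ssm_al_coeffMapF_algebraMap, AlgEquiv.commutes, AlgEquiv.commutes,
        ssm_al_coeffMapF_algebraMap]
    · rintro _ ⟨d, hd, hdN, rfl⟩
      have := hd
      change s36w_WF L N' q hq hqN' (ssm_al_coeffMapF L σ (N' * q * q)
          ⟨qExpand L d (jqModC L), jqModCd_mem_full L (N' * q * q) hdN⟩) =
        ssm_al_coeffMapF L σ (N' * q * q) (s36w_WF L N' q hq hqN'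
          ⟨qExpand L d (jqModC L), jqModCd_mem_full L (N' * q * q) hdN⟩)
      apply Subtype.ext
      rw [ssm_al_coe_coeffMapF]
      rcases s36w_gen_cases L N' q hq hdN with ⟨x, hx, e1⟩ | ⟨x, hx, e1⟩ | ⟨x, hx, e1⟩
      · have hσ : coeffMap σ x ∈ lg_F L N' := ssm_al_coeffMap_mem σ N' hx
        have e2 : (⟨qExpand L d (jqModC L), jqModCd_mem_full L (N' * q * q) hdN⟩ :
            lg_F L (N' * q * q)) = ⟨x, s36w_mem0 L N' q hx⟩ := Subtype.ext e1
        have e3 : ssm_al_coeffMapF L σ (N' * q * q) ⟨x, s36w_mem0 L N' q hx⟩ =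
            ⟨coeffMap σ x, s36w_mem0 L N' q hσ⟩ := rfl
        rw [e2, e3, s36w_coe_WF_of_mem L N' q hq hqN' hσ, s36w_coe_WF_of_mem L N' q hq hqN' hx,
          coeffMap_qExpand, coeffMap_qExpand]
      · have hσ : coeffMap σ x ∈ lg_F L N' := ssm_al_coeffMap_mem σ N' hx
        have e2 : (⟨qExpand L d (jqModC L), jqModCd_mem_full L (N' * q * q) hdN⟩ :
            lg_F L (N' * q * q)) = ⟨qExpand L q x, s36w_mem1 L N' q hx⟩ := Subtype.ext e1
        have e3 : ssm_al_coeffMapF L σ (N' * q * q) ⟨qExpand L q x, s36w_mem1 L N' q hx⟩ =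
            ⟨qExpand L q (coeffMap σ x), s36w_mem1 L N' q hσ⟩ :=
          Subtype.ext (coeffMap_qExpand σ q x)
        rw [e2, e3, s36w_coe_WF_mid_of_mem L N' q hq hqN' hσ,
          s36w_coe_WF_mid_of_mem L N' q hq hqN' hx, coeffMap_qExpand]
      · have hσ : coeffMap σ x ∈ lg_F L N' := ssm_al_coeffMap_mem σ N' hx
        have e2 : (⟨qExpand L d (jqModC L), jqModCd_mem_full L (N' * q * q) hdN⟩ :
            lg_F L (N' * q * q)) = ⟨qExpand L q (qExpand L q x), s36w_mem2 L N' q hx⟩ :=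
          Subtype.ext e1
        have e3 : ssm_al_coeffMapF L σ (N' * q * q)
            ⟨qExpand L q (qExpand L q x), s36w_mem2 L N' q hx⟩ =
            ⟨qExpand L q (qExpand L q (coeffMap σ x)), s36w_mem2 L N' q hσ⟩ :=
          Subtype.ext (by
            change coeffMap σ (qExpand L q (qExpand L q x)) = _
            rw [coeffMap_qExpand, coeffMap_qExpand])
        rw [e2, e3, s36w_coe_WF_top_of_mem L N' q hq hqN' hσ,
          s36w_coe_WF_top_of_mem L N' q hq hqN' hx]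
  exact DFunLike.congr_fun key x

/-- coercion form of `s36w_WF_coeffMapF` -/
theorem s36w_coe_WF_coeffMap (σ : L →+* L) (x : lg_F L (N' * q * q))
    (h : coeffMap σ (x : LaurentSeries L) ∈ lg_F L (N' * q * q)) :
    ((s36w_WF L N' q hq hqN' ⟨coeffMap σ (x : LaurentSeries L), h⟩ : lg_F L (N' * q * q)) :
        LaurentSeries L) =
      coeffMap σ ((s36w_WF L N' q hq hqN' x : lg_F L (N' * q * q)) : LaurentSeries L) :=
  congrArg Subtype.val (s36w_WF_coeffMapF L N' q hq hqN' σ x)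

end Restrict

end Fermat.Agent.S36
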