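/-
Project S36 (Carayol), cell [AL2] (helper17): the ATKIN–LEHNER INVOLUTION `W₂ = W_{q²}` on the
RIGIDIFIED LEGENDRE FIELD `E₂ = lg_E L (N' q q) = F_{lcm(4, 2N') q q}(L)` (`q ∤ N'` an odd prime,
`L ⊆ Q̄` of characteristic zero).  Twin of the `ssm_al_WE` part of `SS/Model/ALE.lean`.

* `s36w_E_eq`    : `lg_E L (N' q q) = F_{lcm(4, 2N') q q}(L)`;
* `s36w_WE`      : the involution; `s36w_WE_WE : W₂ ∘ W₂ = id`;
* `s36w_coe_WE_of_mem / _mid_of_mem / _top_of_mem` : `W₂ x = x(X^{q q})`, `W₂ (x(X^q)) = x(X^q)`,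
  `W₂ (x(X^{q q})) = x` for `x ∈ E' = lg_E L N'` (in particular for `x = λ`);
* `s36w_coe_WE_alpha / _beta` : `W₂ y = (W₁ y)(X^q)`, `W₂ (y(X^q)) = W₁ y` for
  `y ∈ E₁ = lg_E L (N' q)`, `W₁ = ssm_al_WE L N' q`;
* `s36w_coe_WE_coeffMap` : compatibility with the coefficientwise action of `σ : L →+* L`.
Prefix `s36w_`.
-/
import Mathlib
import Fermat.Agent.S36.AL2.Field
import Fermat.Agent.SS.Model.ALE

set_option autoImplicit false
set_option linter.unusedSectionVars false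
set_option linter.unusedVariables false
set_option linter.style.haveILetI false

noncomputable section

open ModularCurve IntermediateField
open Fermat.Agent.JT3 Fermat.Agent.S24 Fermat.Agent.S28 Fermat.Agent.SS

namespace Fermat.Agent.S36

section ELevel2

variable (L : Type*) [Field L] [CharZero L] (N' q : ℕ) [NeZero N'] [NeZero q]

/-- `lg_E L (N' q q) = F_{lcm(4, 2N') q q}(L)` for odd `q`. -/
theorem s36w_E_eq (hq2 : ¬ 2 ∣ q) :
    lg_E L (N' * q * q) = modularFunctionFieldFullC L (ssm_f4_level N' * q * q) := by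
  rw [ssm_f4 L (N' * q * q)]
  congr 1
  rw [ssm_f4_level_mul (N' * q) q hq2, ssm_f4_level_mul N' q hq2]

theorem s36w_E_le1 : lg_E L (N' * q) ≤ lg_E L (N' * q * q) :=
  ssm_al_E_le L (N' * q) q

theorem s36w_E_le0 : lg_E L N' ≤ lg_E L (N' * q * q) :=
  (ssm_al_E_le L N' q).trans (s36w_E_le1 L N' q)

theorem s36w_E_beta_le1 (hq2 : ¬ 2 ∣ q) :
    (lg_E L (N' * q)).map (qExpandAlgHomC L q) ≤ lg_E L (N' * q * q) :=
  ssm_al_E_beta_le L (N' * q) q hq2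

end ELevel2

section ETransport2

variable (L : Type*) [Field L] [CharZero L] [Algebra L (AlgebraicClosure ℚ)]
  (N' q : ℕ) [NeZero N'] [NeZero q] (hq : q.Prime) (hq2 : ¬ 2 ∣ q) (hqN' : ¬ q ∣ N')

/-- **[AL2]**: the Atkin–Lehner involution `W_{q²}` of `E₂ = lg_E L (N' q q)`, `q ∤ N'` an odd
prime. -/
def s36w_WE : lg_E L (N' * q * q) ≃ₐ[L] lg_E L (N' * q * q) :=
  ssm_al_transport (s36w_E_eq L N' q hq2)
    (s36w_WF L (ssm_f4_level N') q hq (ssm_al_not_dvd_level N' q hq hq2 hqN'))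

include hq2 in
theorem s36w_mem_F_of_mem_E {x : LaurentSeries L} (h : x ∈ lg_E L (N' * q * q)) :
    x ∈ lg_F L (ssm_f4_level N' * q * q) := by
  have e := s36w_E_eq L N' q hq2
  rw [e] at h
  exact h

theorem s36w_coe_WE (x : LaurentSeries L) (h : x ∈ lg_E L (N' * q * q)) :
    ((s36w_WE L N' q hq hq2 hqN' ⟨x, h⟩ : lg_E L (N' * q * q)) : LaurentSeries L) =
      ((s36w_WF L (ssm_f4_level N') q hq (ssm_al_not_dvd_level N' q hq hq2 hqN')
        ⟨x, s36w_mem_F_of_mem_E L N' q hq2 h⟩ : lg_F L (ssm_f4_level N' * q * q)) :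
          LaurentSeries L) :=
  ssm_al_coe_transport (s36w_E_eq L N' q hq2) _ x h _

/-- `W₂ ∘ W₂ = id`. -/
theorem s36w_WE_WE (x : lg_E L (N' * q * q)) :
    s36w_WE L N' q hq hq2 hqN' (s36w_WE L N' q hq hq2 hqN' x) = x := by
  apply Subtype.ext
  rw [s36w_coe_WE]
  have e : (⟨((s36w_WE L N' q hq hq2 hqN' x : lg_E L (N' * q * q)) : LaurentSeries L),
      s36w_mem_F_of_mem_E L N' q hq2 (Subtype.mem _)⟩ : lg_F L (ssm_f4_level N' * q * q)) =
      s36w_WF L (ssm_f4_level N') q hq (ssm_al_not_dvd_level N' q hq hq2 hqN')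
        ⟨x, s36w_mem_F_of_mem_E L N' q hq2 x.2⟩ := rfl
  rw [e, s36w_WF_WF]

theorem s36w_WE_symm :
    (s36w_WE L N' q hq hq2 hqN').symm = s36w_WE L N' q hq hq2 hqN' := by
  refine AlgEquiv.ext fun x => ?_
  rw [AlgEquiv.symm_apply_eq, s36w_WE_WE]

include hq2 in
theorem s36w_mem_F_of_mem_E0 {x : LaurentSeries L} (hx : x ∈ lg_E L N') :
    x ∈ lg_F L (ssm_f4_level N') := by
  have e := ssm_f4 L N'
  rw [e] at hx
  exact hx

/-- `W₂ x = x(X^{q q})` for `x ∈ E' = lg_E L N'`. -/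
theorem s36w_coe_WE_of_mem {x : LaurentSeries L} (hx : x ∈ lg_E L N')
    (h : x ∈ lg_E L (N' * q * q)) :
    ((s36w_WE L N' q hq hq2 hqN' ⟨x, h⟩ : lg_E L (N' * q * q)) : LaurentSeries L) =
      qExpand L q (qExpand L q x) := by
  rw [s36w_coe_WE]
  exact s36w_coe_WF_of_mem L (ssm_f4_level N') q hq _ (s36w_mem_F_of_mem_E0 L N' q hq2 hx) _

/-- `W₂ (x(X^q)) = x(X^q)` for `x ∈ E' = lg_E L N'`. -/
theorem s36w_coe_WE_mid_of_mem {x : LaurentSeries L} (hx : x ∈ lg_E L N')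
    (h : qExpand L q x ∈ lg_E L (N' * q * q)) :
    ((s36w_WE L N' q hq hq2 hqN' ⟨qExpand L q x, h⟩ : lg_E L (N' * q * q)) : LaurentSeries L) =
      qExpand L q x := by
  rw [s36w_coe_WE]
  exact s36w_coe_WF_mid_of_mem L (ssm_f4_level N') q hq _ (s36w_mem_F_of_mem_E0 L N' q hq2 hx) _

/-- `W₂ (x(X^{q q})) = x` for `x ∈ E' = lg_E L N'`. -/
theorem s36w_coe_WE_top_of_mem {x : LaurentSeries L} (hx : x ∈ lg_E L N')
    (h : qExpand L q (qExpand L q x) ∈ lg_E L (N' * q * q)) :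
    ((s36w_WE L N' q hq hq2 hqN' ⟨qExpand L q (qExpand L q x), h⟩ : lg_E L (N' * q * q)) :
      LaurentSeries L) = x := by
  rw [s36w_coe_WE]
  exact s36w_coe_WF_top_of_mem L (ssm_f4_level N') q hq _ (s36w_mem_F_of_mem_E0 L N' q hq2 hx) _

/-- `W₂ λ = λ(X^{q q})`. -/
theorem s36w_coe_WE_lam (h : lg_lam L ∈ lg_E L (N' * q * q)) :
    ((s36w_WE L N' q hq hq2 hqN' ⟨lg_lam L, h⟩ : lg_E L (N' * q * q)) : LaurentSeries L) =
      qExpand L q (qExpand L q (lg_lam L)) :=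
  s36w_coe_WE_of_mem L N' q hq hq2 hqN' (lg_lam_mem_E L N') h

/-- `W₂ (λ(X^q)) = λ(X^q)`. -/
theorem s36w_coe_WE_lam_mid (h : qExpand L q (lg_lam L) ∈ lg_E L (N' * q * q)) :
    ((s36w_WE L N' q hq hq2 hqN' ⟨qExpand L q (lg_lam L), h⟩ : lg_E L (N' * q * q)) :
      LaurentSeries L) = qExpand L q (lg_lam L) :=
  s36w_coe_WE_mid_of_mem L N' q hq hq2 hqN' (lg_lam_mem_E L N') h

/-- `W₂ (λ(X^{q q})) = λ`. -/
theorem s36w_coe_WE_lam_top (h : qExpand L q (qExpand L q (lg_lam L)) ∈ lg_E L (N' * q * q)) :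
    ((s36w_WE L N' q hq hq2 hqN' ⟨qExpand L q (qExpand L q (lg_lam L)), h⟩ :
      lg_E L (N' * q * q)) : LaurentSeries L) = lg_lam L :=
  s36w_coe_WE_top_of_mem L N' q hq hq2 hqN' (lg_lam_mem_E L N') h

/-- `W₂ y = (W₁ y)(X^q)` for `y ∈ E₁ = lg_E L (N' q)`. -/
theorem s36w_coe_WE_alpha (y : lg_E L (N' * q))
    (h : (y : LaurentSeries L) ∈ lg_E L (N' * q * q)) :
    ((s36w_WE L N' q hq hq2 hqN' ⟨(y : LaurentSeries L), h⟩ : lg_E L (N' * q * q)) :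
      LaurentSeries L) =
      qExpand L q ((ssm_al_WE L N' q hq hq2 hqN' y : lg_E L (N' * q)) : LaurentSeries L) := by
  rw [s36w_coe_WE, ssm_al_coe_WE]
  exact s36w_coe_WF_alpha L (ssm_f4_level N') q hq (ssm_al_not_dvd_level N' q hq hq2 hqN')
    ⟨(y : LaurentSeries L), ssm_al_mem_F_of_mem_E L N' q hq2 y.2⟩ _

/-- `W₂ (y(X^q)) = W₁ y` for `y ∈ E₁ = lg_E L (N' q)`. -/
theorem s36w_coe_WE_beta (y : lg_E L (N' * q))
    (h : qExpand L q (y : LaurentSeries L) ∈ lg_E L (N' * q * q)) :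
    ((s36w_WE L N' q hq hq2 hqN' ⟨qExpand L q (y : LaurentSeries L), h⟩ :
      lg_E L (N' * q * q)) : LaurentSeries L) =
      ((ssm_al_WE L N' q hq hq2 hqN' y : lg_E L (N' * q)) : LaurentSeries L) := by
  rw [s36w_coe_WE, ssm_al_coe_WE]
  exact s36w_coe_WF_beta L (ssm_f4_level N') q hq (ssm_al_not_dvd_level N' q hq hq2 hqN')
    ⟨(y : LaurentSeries L), ssm_al_mem_F_of_mem_E L N' q hq2 y.2⟩ _

/-- `W₂` commutes with the coefficientwise action of every ring endomorphism of `L`. -/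
theorem s36w_coe_WE_coeffMap (σ : L →+* L) (x : lg_E L (N' * q * q))
    (h : coeffMap σ (x : LaurentSeries L) ∈ lg_E L (N' * q * q)) :
    ((s36w_WE L N' q hq hq2 hqN' ⟨coeffMap σ (x : LaurentSeries L), h⟩ : lg_E L (N' * q * q)) :
        LaurentSeries L) =
      coeffMap σ ((s36w_WE L N' q hq hq2 hqN' x : lg_E L (N' * q * q)) : LaurentSeries L) := by
  rw [s36w_coe_WE]
  exact s36w_coe_WF_coeffMap L (ssm_f4_level N') q hq _ σ
    ⟨x, s36w_mem_F_of_mem_E L N' q hq2 x.2⟩ _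

end ETransport2

end Fermat.Agent.S36
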