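/-
Project S36 (Carayol), cell [AL2] (helper17): BASE CHANGE of the Atkin–Lehner involution `W_{q²}`.
For fields `L₀, L ⊆ Q̄` of characteristic zero and ANY ring homomorphism `f : L₀ →+* L`:

  `W₂^L (coeffMap f x) = coeffMap f (W₂^{L₀} x)`   (`s36w_WF_bc`, `s36w_coe_WE_bc`).

Twin of `SS/Model/ALBC.lean`.  Prefix `s36w_`.
-/
import Mathlib
import Fermat.Agent.S36.AL2.Cover
import Fermat.Agent.SS.Model.ALBC

set_option autoImplicit false
set_option linter.unusedSectionVars false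
set_option linter.unusedVariables false
set_option linter.style.haveILetI false

noncomputable section

open ModularCurve IntermediateField
open Fermat.Agent.JT3 Fermat.Agent.S24 Fermat.Agent.S28 Fermat.Agent.SS

namespace Fermat.Agent.S36

section BC

variable {L₀ L : Type*} [Field L₀] [CharZero L₀] [Algebra L₀ (AlgebraicClosure ℚ)]
  [Field L] [CharZero L] [Algebra L (AlgebraicClosure ℚ)] (f : L₀ →+* L)
  (N' q : ℕ) [NeZero N'] [NeZero q] (hq : q.Prime) (hqN' : ¬ q ∣ N')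

/-- **base change**: `W₂^L ∘ coeffMap f = coeffMap f ∘ W₂^{L₀}` on `F_{N' q q}(L₀)`, for every ring
homomorphism `f : L₀ →+* L`. -/
theorem s36w_WF_bc (x : lg_F L₀ (N' * q * q)) :
    s36w_WF L N' q hq hqN' (ssm_al_bcF f (N' * q * q) x) =
      ssm_al_bcF f (N' * q * q) (s36w_WF L₀ N' q hq hqN' x) := by
  have key : ((s36w_WF L N' q hq hqN' : lg_F L (N' * q * q) →+* lg_F L (N' * q * q)).comp
        (ssm_al_bcF f (N' * q * q)) :
        IntermediateField.adjoin L₀ (divisorExpansionsC L₀ (N' * q * q)) →+*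
          lg_F L (N' * q * q)) =
      (ssm_al_bcF f (N' * q * q)).comp
        (s36w_WF L₀ N' q hq hqN' : lg_F L₀ (N' * q * q) →+* lg_F L₀ (N' * q * q)) := by
    refine ssm_al_ringHom_ext (divisorExpansionsC L₀ (N' * q * q)) _ _ (fun c => ?_) ?_
    · change s36w_WF L N' q hq hqN'
          (ssm_al_bcF f (N' * q * q) (algebraMap L₀ (lg_F L₀ (N' * q * q)) c)) =
        ssm_al_bcF f (N' * q * q)
          (s36w_WF L₀ N' q hq hqN' (algebraMap L₀ (lg_F L₀ (N' * q * q)) c))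
      rw [ssm_al_bcF_algebraMap, AlgEquiv.commutes, AlgEquiv.commutes, ssm_al_bcF_algebraMap]
    · rintro _ ⟨d, hd, hdN, rfl⟩
      have := hd
      change s36w_WF L N' q hq hqN' (ssm_al_bcF f (N' * q * q)
          ⟨qExpand L₀ d (jqModC L₀), jqModCd_mem_full L₀ (N' * q * q) hdN⟩) =
        ssm_al_bcF f (N' * q * q) (s36w_WF L₀ N' q hq hqN'
          ⟨qExpand L₀ d (jqModC L₀), jqModCd_mem_full L₀ (N' * q * q) hdN⟩)
      apply Subtype.ext
      rw [ssm_al_coe_bcF]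
      rcases s36w_gen_cases L₀ N' q hq hdN with ⟨x, hx, e1⟩ | ⟨x, hx, e1⟩ | ⟨x, hx, e1⟩
      · have hσ : coeffMap f x ∈ lg_F L N' := ssm_al_coeffMap_mem f N' hx
        have e2 : (⟨qExpand L₀ d (jqModC L₀), jqModCd_mem_full L₀ (N' * q * q) hdN⟩ :
            lg_F L₀ (N' * q * q)) = ⟨x, s36w_mem0 L₀ N' q hx⟩ := Subtype.ext e1
        have e3 : ssm_al_bcF f (N' * q * q) ⟨x, s36w_mem0 L₀ N' q hx⟩ =
            ⟨coeffMap f x, s36w_mem0 L N' q hσ⟩ := rfl
        rw [e2, e3, s36w_coe_WF_of_mem L N' q hq hqN' hσ, s36w_coe_WF_of_mem L₀ N' q hq hqN' hx,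
          coeffMap_qExpand, coeffMap_qExpand]
      · have hσ : coeffMap f x ∈ lg_F L N' := ssm_al_coeffMap_mem f N' hx
        have e2 : (⟨qExpand L₀ d (jqModC L₀), jqModCd_mem_full L₀ (N' * q * q) hdN⟩ :
            lg_F L₀ (N' * q * q)) = ⟨qExpand L₀ q x, s36w_mem1 L₀ N' q hx⟩ := Subtype.ext e1
        have e3 : ssm_al_bcF f (N' * q * q) ⟨qExpand L₀ q x, s36w_mem1 L₀ N' q hx⟩ =
            ⟨qExpand L q (coeffMap f x), s36w_mem1 L N' q hσ⟩ :=
          Subtype.ext (coeffMap_qExpand f q x)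
        rw [e2, e3, s36w_coe_WF_mid_of_mem L N' q hq hqN' hσ,
          s36w_coe_WF_mid_of_mem L₀ N' q hq hqN' hx, coeffMap_qExpand]
      · have hσ : coeffMap f x ∈ lg_F L N' := ssm_al_coeffMap_mem f N' hx
        have e2 : (⟨qExpand L₀ d (jqModC L₀), jqModCd_mem_full L₀ (N' * q * q) hdN⟩ :
            lg_F L₀ (N' * q * q)) = ⟨qExpand L₀ q (qExpand L₀ q x), s36w_mem2 L₀ N' q hx⟩ :=
          Subtype.ext e1
        have e3 : ssm_al_bcF f (N' * q * q)
            ⟨qExpand L₀ q (qExpand L₀ q x), s36w_mem2 L₀ N' q hx⟩ =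
            ⟨qExpand L q (qExpand L q (coeffMap f x)), s36w_mem2 L N' q hσ⟩ :=
          Subtype.ext (by
            change coeffMap f (qExpand L₀ q (qExpand L₀ q x)) = _
            rw [coeffMap_qExpand, coeffMap_qExpand])
        rw [e2, e3, s36w_coe_WF_top_of_mem L N' q hq hqN' hσ,
          s36w_coe_WF_top_of_mem L₀ N' q hq hqN' hx]
  exact DFunLike.congr_fun key x

/-- coercion form, arbitrary membership proof -/
theorem s36w_coe_WF_bc (x : lg_F L₀ (N' * q * q))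
    (h : coeffMap f (x : LaurentSeries L₀) ∈ lg_F L (N' * q * q)) :
    ((s36w_WF L N' q hq hqN' ⟨coeffMap f (x : LaurentSeries L₀), h⟩ : lg_F L (N' * q * q)) :
        LaurentSeries L) =
      coeffMap f ((s36w_WF L₀ N' q hq hqN' x : lg_F L₀ (N' * q * q)) : LaurentSeries L₀) :=
  congrArg Subtype.val (s36w_WF_bc f N' q hq hqN' x)

end BC

section BCE

variable {L₀ L : Type*} [Field L₀] [CharZero L₀] [Algebra L₀ (AlgebraicClosure ℚ)]
  [Field L] [CharZero L] [Algebra L (AlgebraicClosure ℚ)] (f : L₀ →+* L)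
  (N' q : ℕ) [NeZero N'] [NeZero q] (hq : q.Prime) (hq2 : ¬ 2 ∣ q) (hqN' : ¬ q ∣ N')

/-- **base change on the rigidified field**: `W₂^L (coeffMap f x) = coeffMap f (W₂^{L₀} x)`. -/
theorem s36w_coe_WE_bc (x : lg_E L₀ (N' * q * q))
    (h : coeffMap f (x : LaurentSeries L₀) ∈ lg_E L (N' * q * q)) :
    ((s36w_WE L N' q hq hq2 hqN' ⟨coeffMap f (x : LaurentSeries L₀), h⟩ : lg_E L (N' * q * q)) :
        LaurentSeries L) =
      coeffMap f ((s36w_WE L₀ N' q hq hq2 hqN' x : lg_E L₀ (N' * q * q)) :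
        LaurentSeries L₀) := by
  rw [s36w_coe_WE]
  have h1 := s36w_coe_WE L₀ N' q hq hq2 hqN' (x : LaurentSeries L₀) x.2
  have h2 : ((s36w_WE L₀ N' q hq hq2 hqN' x : lg_E L₀ (N' * q * q)) : LaurentSeries L₀) =
      ((s36w_WF L₀ (ssm_f4_level N') q hq (ssm_al_not_dvd_level N' q hq hq2 hqN')
        ⟨x, s36w_mem_F_of_mem_E L₀ N' q hq2 x.2⟩ : lg_F L₀ (ssm_f4_level N' * q * q)) :
          LaurentSeries L₀) := h1
  rw [h2]
  exact s36w_coe_WF_bc f (ssm_f4_level N') q hq _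
    ⟨x, s36w_mem_F_of_mem_E L₀ N' q hq2 x.2⟩ _

end BCE

end Fermat.Agent.S36
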