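/-
Project S36 (Carayol), cell [AL2] (helper17), HESSE TWIN: the ATKIN–LEHNER INVOLUTION `W₂ = W_{q²}`
on the RIGIDIFIED HESSE FIELD `hs_E L h3 (N' q q) = F_{lcm(9, 3N') q q}(L)` (`q` a prime, `3 ∤ q`,
`q ∤ N'`; in the application `q = 2`, i.e. `4 ‖ M`).  Twin of `S36/AL2/Cover.lean` and of
`SS/Model/ALEHesse.lean`; as there, everything is proved against the hypothesis

  `hF9 : ∀ (N : ℕ) [NeZero N], hs_E L h3 N = modularFunctionFieldFullC L (Nat.lcm 9 (3 * N))`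

(= `ssm_f9'`, SS/Model/F9.lean, on main).

* `s36w_h_E_eq`   : `hs_E L h3 (N' q q) = F_{lcm(9, 3N') q q}(L)`;
* `s36w_h_WE`     : the involution; `s36w_h_WE_WE : W₂ ∘ W₂ = id`;
* `s36w_h_coe_WE_of_mem / _mid_of_mem / _top_of_mem` : `W₂ x = x(X^{q q})`,
  `W₂ (x(X^q)) = x(X^q)`, `W₂ (x(X^{q q})) = x` for `x ∈ E' = hs_E L h3 N'` (e.g. `x = μ`);
* `s36w_h_coe_WE_alpha / _beta` : `W₂ y = (W₁ y)(X^q)`, `W₂ (y(X^q)) = W₁ y` for
  `y ∈ E₁ = hs_E L h3 (N' q)`, `W₁ = ssm_alh_WE`;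
* `s36w_h_coe_WE_coeffMap`, `s36w_h_coe_WE_bc` : compatibility with `coeffMap`.
Prefix `s36w_h_`.
-/
import Mathlib
import Fermat.Agent.S36.AL2.BC
import Fermat.Agent.SS.Model.ALEHesse

set_option autoImplicit false
set_option linter.unusedSectionVars false
set_option linter.unusedVariables false
set_option linter.style.haveILetI false

noncomputable section

open ModularCurve IntermediateField
open Fermat.Agent.JT3 Fermat.Agent.S24 Fermat.Agent.S28 Fermat.Agent.SS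

namespace Fermat.Agent.S36

section ELevel2

variable (L : Type*) [Field L] [CharZero L] (h3 : (3 : L) ≠ 0)
  (hF9 : ∀ (N : ℕ) [NeZero N], hs_E L h3 N = modularFunctionFieldFullC L (Nat.lcm 9 (3 * N)))
  (N' q : ℕ) [NeZero N'] [NeZero q]

include hF9

/-- `hs_E L h3 (N' q q) = F_{lcm(9, 3N') q q}(L)` for `q` prime to `3`. -/
theorem s36w_h_E_eq (hq3 : ¬ 3 ∣ q) :
    hs_E L h3 (N' * q * q) = modularFunctionFieldFullC L (ssm_alh_level N' * q * q) := by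
  rw [ssm_alh_E_eq_level L h3 hF9 (N' * q * q)]
  congr 1
  rw [ssm_alh_level_mul (N' * q) q hq3, ssm_alh_level_mul N' q hq3]

theorem s36w_h_E_le1 : hs_E L h3 (N' * q) ≤ hs_E L h3 (N' * q * q) :=
  ssm_alh_E_le L h3 hF9 (N' * q) q

theorem s36w_h_E_le0 : hs_E L h3 N' ≤ hs_E L h3 (N' * q * q) :=
  (ssm_alh_E_le L h3 hF9 N' q).trans (s36w_h_E_le1 L h3 hF9 N' q)

theorem s36w_h_E_beta_le1 (hq3 : ¬ 3 ∣ q) :
    (hs_E L h3 (N' * q)).map (qExpandAlgHomC L q) ≤ hs_E L h3 (N' * q * q) :=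
  ssm_alh_E_beta_le L h3 hF9 (N' * q) q hq3

end ELevel2

section ETransport2

variable (L : Type*) [Field L] [CharZero L] [Algebra L (AlgebraicClosure ℚ)] (h3 : (3 : L) ≠ 0)
  (hF9 : ∀ (N : ℕ) [NeZero N], hs_E L h3 N = modularFunctionFieldFullC L (Nat.lcm 9 (3 * N)))
  (N' q : ℕ) [NeZero N'] [NeZero q] (hq : q.Prime) (hq3 : ¬ 3 ∣ q) (hqN' : ¬ q ∣ N')

/-- **[AL2], Hesse twin**: the Atkin–Lehner involution `W_{q²}` of `hs_E L h3 (N' q q)`. -/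
def s36w_h_WE : hs_E L h3 (N' * q * q) ≃ₐ[L] hs_E L h3 (N' * q * q) :=
  ssm_al_transport (s36w_h_E_eq L h3 hF9 N' q hq3)
    (s36w_WF L (ssm_alh_level N') q hq (ssm_alh_not_dvd_level N' q hq hq3 hqN'))

include hF9 hq3 in
theorem s36w_h_mem_F_of_mem_E {x : LaurentSeries L} (h : x ∈ hs_E L h3 (N' * q * q)) :
    x ∈ lg_F L (ssm_alh_level N' * q * q) := by
  have e := s36w_h_E_eq L h3 hF9 N' q hq3
  rw [e] at h
  exact h

theorem s36w_h_coe_WE (x : LaurentSeries L) (h : x ∈ hs_E L h3 (N' * q * q)) :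
    ((s36w_h_WE L h3 hF9 N' q hq hq3 hqN' ⟨x, h⟩ : hs_E L h3 (N' * q * q)) : LaurentSeries L) =
      ((s36w_WF L (ssm_alh_level N') q hq (ssm_alh_not_dvd_level N' q hq hq3 hqN')
        ⟨x, s36w_h_mem_F_of_mem_E L h3 hF9 N' q hq3 h⟩ : lg_F L (ssm_alh_level N' * q * q)) :
          LaurentSeries L) :=
  ssm_al_coe_transport (s36w_h_E_eq L h3 hF9 N' q hq3) _ x h _

/-- `W₂ ∘ W₂ = id`. -/
theorem s36w_h_WE_WE (x : hs_E L h3 (N' * q * q)) :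
    s36w_h_WE L h3 hF9 N' q hq hq3 hqN' (s36w_h_WE L h3 hF9 N' q hq hq3 hqN' x) = x := by
  apply Subtype.ext
  rw [s36w_h_coe_WE]
  have e : (⟨((s36w_h_WE L h3 hF9 N' q hq hq3 hqN' x : hs_E L h3 (N' * q * q)) :
      LaurentSeries L), s36w_h_mem_F_of_mem_E L h3 hF9 N' q hq3 (Subtype.mem _)⟩ :
        lg_F L (ssm_alh_level N' * q * q)) =
      s36w_WF L (ssm_alh_level N') q hq (ssm_alh_not_dvd_level N' q hq hq3 hqN')
        ⟨x, s36w_h_mem_F_of_mem_E L h3 hF9 N' q hq3 x.2⟩ := rfl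
  rw [e, s36w_WF_WF]

theorem s36w_h_WE_symm :
    (s36w_h_WE L h3 hF9 N' q hq hq3 hqN').symm = s36w_h_WE L h3 hF9 N' q hq hq3 hqN' := by
  refine AlgEquiv.ext fun x => ?_
  rw [AlgEquiv.symm_apply_eq, s36w_h_WE_WE]

include hF9 in
theorem s36w_h_mem_F_of_mem_E0 {x : LaurentSeries L} (hx : x ∈ hs_E L h3 N') :
    x ∈ lg_F L (ssm_alh_level N') := by
  have e := ssm_alh_E_eq_level L h3 hF9 N'
  rw [e] at hx
  exact hx

/-- `W₂ x = x(X^{q q})` for `x ∈ E' = hs_E L h3 N'`. -/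
theorem s36w_h_coe_WE_of_mem {x : LaurentSeries L} (hx : x ∈ hs_E L h3 N')
    (h : x ∈ hs_E L h3 (N' * q * q)) :
    ((s36w_h_WE L h3 hF9 N' q hq hq3 hqN' ⟨x, h⟩ : hs_E L h3 (N' * q * q)) : LaurentSeries L) =
      qExpand L q (qExpand L q x) := by
  rw [s36w_h_coe_WE]
  exact s36w_coe_WF_of_mem L (ssm_alh_level N') q hq _ (s36w_h_mem_F_of_mem_E0 L h3 hF9 N' hx) _

/-- `W₂ (x(X^q)) = x(X^q)` for `x ∈ E' = hs_E L h3 N'`. -/
theorem s36w_h_coe_WE_mid_of_mem {x : LaurentSeries L} (hx : x ∈ hs_E L h3 N')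
    (h : qExpand L q x ∈ hs_E L h3 (N' * q * q)) :
    ((s36w_h_WE L h3 hF9 N' q hq hq3 hqN' ⟨qExpand L q x, h⟩ : hs_E L h3 (N' * q * q)) :
      LaurentSeries L) = qExpand L q x := by
  rw [s36w_h_coe_WE]
  exact s36w_coe_WF_mid_of_mem L (ssm_alh_level N') q hq _
    (s36w_h_mem_F_of_mem_E0 L h3 hF9 N' hx) _

/-- `W₂ (x(X^{q q})) = x` for `x ∈ E' = hs_E L h3 N'`. -/
theorem s36w_h_coe_WE_top_of_mem {x : LaurentSeries L} (hx : x ∈ hs_E L h3 N')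
    (h : qExpand L q (qExpand L q x) ∈ hs_E L h3 (N' * q * q)) :
    ((s36w_h_WE L h3 hF9 N' q hq hq3 hqN' ⟨qExpand L q (qExpand L q x), h⟩ :
      hs_E L h3 (N' * q * q)) : LaurentSeries L) = x := by
  rw [s36w_h_coe_WE]
  exact s36w_coe_WF_top_of_mem L (ssm_alh_level N') q hq _
    (s36w_h_mem_F_of_mem_E0 L h3 hF9 N' hx) _

/-- `W₂ μ = μ(X^{q q})`. -/
theorem s36w_h_coe_WE_mu (h : hs_mu L h3 ∈ hs_E L h3 (N' * q * q)) :
    ((s36w_h_WE L h3 hF9 N' q hq hq3 hqN' ⟨hs_mu L h3, h⟩ : hs_E L h3 (N' * q * q)) :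
      LaurentSeries L) = qExpand L q (qExpand L q (hs_mu L h3)) :=
  s36w_h_coe_WE_of_mem L h3 hF9 N' q hq hq3 hqN' (hs_mu_mem_E L h3 N') h

/-- `W₂ (μ(X^q)) = μ(X^q)`. -/
theorem s36w_h_coe_WE_mu_mid (h : qExpand L q (hs_mu L h3) ∈ hs_E L h3 (N' * q * q)) :
    ((s36w_h_WE L h3 hF9 N' q hq hq3 hqN' ⟨qExpand L q (hs_mu L h3), h⟩ :
      hs_E L h3 (N' * q * q)) : LaurentSeries L) = qExpand L q (hs_mu L h3) :=
  s36w_h_coe_WE_mid_of_mem L h3 hF9 N' q hq hq3 hqN' (hs_mu_mem_E L h3 N') h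

/-- `W₂ (μ(X^{q q})) = μ`. -/
theorem s36w_h_coe_WE_mu_top
    (h : qExpand L q (qExpand L q (hs_mu L h3)) ∈ hs_E L h3 (N' * q * q)) :
    ((s36w_h_WE L h3 hF9 N' q hq hq3 hqN' ⟨qExpand L q (qExpand L q (hs_mu L h3)), h⟩ :
      hs_E L h3 (N' * q * q)) : LaurentSeries L) = hs_mu L h3 :=
  s36w_h_coe_WE_top_of_mem L h3 hF9 N' q hq hq3 hqN' (hs_mu_mem_E L h3 N') h

/-- `W₂ y = (W₁ y)(X^q)` for `y ∈ E₁ = hs_E L h3 (N' q)`. -/
theorem s36w_h_coe_WE_alpha (y : hs_E L h3 (N' * q))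
    (h : (y : LaurentSeries L) ∈ hs_E L h3 (N' * q * q)) :
    ((s36w_h_WE L h3 hF9 N' q hq hq3 hqN' ⟨(y : LaurentSeries L), h⟩ :
      hs_E L h3 (N' * q * q)) : LaurentSeries L) =
      qExpand L q ((ssm_alh_WE L h3 hF9 N' q hq hq3 hqN' y : hs_E L h3 (N' * q)) :
        LaurentSeries L) := by
  rw [s36w_h_coe_WE, ssm_alh_coe_WE]
  exact s36w_coe_WF_alpha L (ssm_alh_level N') q hq (ssm_alh_not_dvd_level N' q hq hq3 hqN')
    ⟨(y : LaurentSeries L), ssm_alh_mem_F_of_mem_E L h3 hF9 N' q hq3 y.2⟩ _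

/-- `W₂ (y(X^q)) = W₁ y` for `y ∈ E₁ = hs_E L h3 (N' q)`. -/
theorem s36w_h_coe_WE_beta (y : hs_E L h3 (N' * q))
    (h : qExpand L q (y : LaurentSeries L) ∈ hs_E L h3 (N' * q * q)) :
    ((s36w_h_WE L h3 hF9 N' q hq hq3 hqN' ⟨qExpand L q (y : LaurentSeries L), h⟩ :
      hs_E L h3 (N' * q * q)) : LaurentSeries L) =
      ((ssm_alh_WE L h3 hF9 N' q hq hq3 hqN' y : hs_E L h3 (N' * q)) : LaurentSeries L) := by
  rw [s36w_h_coe_WE, ssm_alh_coe_WE]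
  exact s36w_coe_WF_beta L (ssm_alh_level N') q hq (ssm_alh_not_dvd_level N' q hq hq3 hqN')
    ⟨(y : LaurentSeries L), ssm_alh_mem_F_of_mem_E L h3 hF9 N' q hq3 y.2⟩ _

/-- `W₂` commutes with the coefficientwise action of every ring endomorphism of `L`. -/
theorem s36w_h_coe_WE_coeffMap (σ : L →+* L) (x : hs_E L h3 (N' * q * q))
    (h : coeffMap σ (x : LaurentSeries L) ∈ hs_E L h3 (N' * q * q)) :
    ((s36w_h_WE L h3 hF9 N' q hq hq3 hqN' ⟨coeffMap σ (x : LaurentSeries L), h⟩ :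
        hs_E L h3 (N' * q * q)) : LaurentSeries L) =
      coeffMap σ ((s36w_h_WE L h3 hF9 N' q hq hq3 hqN' x : hs_E L h3 (N' * q * q)) :
        LaurentSeries L) := by
  rw [s36w_h_coe_WE]
  exact s36w_coe_WF_coeffMap L (ssm_alh_level N') q hq _ σ
    ⟨x, s36w_h_mem_F_of_mem_E L h3 hF9 N' q hq3 x.2⟩ _

end ETransport2

section BCH

variable {L₀ L : Type*} [Field L₀] [CharZero L₀] [Algebra L₀ (AlgebraicClosure ℚ)]
  [Field L] [CharZero L] [Algebra L (AlgebraicClosure ℚ)] (f : L₀ →+* L)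
  (h3₀ : (3 : L₀) ≠ 0) (h3 : (3 : L) ≠ 0)
  (hF9₀ : ∀ (N : ℕ) [NeZero N], hs_E L₀ h3₀ N = modularFunctionFieldFullC L₀ (Nat.lcm 9 (3 * N)))
  (hF9 : ∀ (N : ℕ) [NeZero N], hs_E L h3 N = modularFunctionFieldFullC L (Nat.lcm 9 (3 * N)))
  (N' q : ℕ) [NeZero N'] [NeZero q] (hq : q.Prime) (hq3 : ¬ 3 ∣ q) (hqN' : ¬ q ∣ N')

/-- **base change on the rigidified Hesse field**:
`W₂^L (coeffMap f x) = coeffMap f (W₂^{L₀} x)`. -/
theorem s36w_h_coe_WE_bc (x : hs_E L₀ h3₀ (N' * q * q))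
    (h : coeffMap f (x : LaurentSeries L₀) ∈ hs_E L h3 (N' * q * q)) :
    ((s36w_h_WE L h3 hF9 N' q hq hq3 hqN' ⟨coeffMap f (x : LaurentSeries L₀), h⟩ :
        hs_E L h3 (N' * q * q)) : LaurentSeries L) =
      coeffMap f ((s36w_h_WE L₀ h3₀ hF9₀ N' q hq hq3 hqN' x : hs_E L₀ h3₀ (N' * q * q)) :
        LaurentSeries L₀) := by
  rw [s36w_h_coe_WE]
  have h1 := s36w_h_coe_WE L₀ h3₀ hF9₀ N' q hq hq3 hqN' (x : LaurentSeries L₀) x.2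
  have h2 : ((s36w_h_WE L₀ h3₀ hF9₀ N' q hq hq3 hqN' x : hs_E L₀ h3₀ (N' * q * q)) :
      LaurentSeries L₀) =
      ((s36w_WF L₀ (ssm_alh_level N') q hq (ssm_alh_not_dvd_level N' q hq hq3 hqN')
        ⟨x, s36w_h_mem_F_of_mem_E L₀ h3₀ hF9₀ N' q hq3 x.2⟩ :
          lg_F L₀ (ssm_alh_level N' * q * q)) : LaurentSeries L₀) := h1
  rw [h2]
  exact s36w_coe_WF_bc f (ssm_alh_level N') q hq _
    ⟨x, s36w_h_mem_F_of_mem_E L₀ h3₀ hF9₀ N' q hq3 x.2⟩ _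

end BCH

end Fermat.Agent.S36
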